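/-
S25, block CECH, leaf E1 (helper790).

Finiteness of the Čech `H^1` of the standard two-chart cover:
`N01 ⧸ (r0 N0 + r1 N1)` is a finitely generated `A`-module as soon as `N0` is finitely generated
over `A[x]`, and `N01` is the localization of `N0` away from `x` and of `N1` away from `y = x⁻¹`.

* `cechH1_finite_core`  : unbundled core (only `A`-linear data: the operators "multiplication by
  `x`" on `N0`, "multiplication by `y`" on `N1`, and the mutually inverse operators `T`, `Tinv` on
  `N01`).  No finiteness hypothesis on `N1` is needed.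
* `cechH1_finite`       : bundled corollary for algebras `R0 = A[x]`, `R1`, `R01` with
  `x * y = 1` in `R01` and `IsLocalizedModule (Submonoid.powers _)` hypotheses.
-/
import Mathlib

namespace Fermat.Agent.S25.H790

open Submodule

section Core

variable {A : Type*} [CommRing A]
variable {N0 N1 N01 : Type*} [AddCommGroup N0] [AddCommGroup N1] [AddCommGroup N01]
variable [Module A N0] [Module A N1] [Module A N01]

/-- If `T * Tinv = 1` then `T ^ i * Tinv ^ i = 1`. -/
theorem pow_mul_pow_eq_one_of_mul_eq_one {M : Type*} [Monoid M] {T Tinv : M}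
    (h : T * Tinv = 1) (h' : Tinv * T = 1) (i : ℕ) : T ^ i * Tinv ^ i = 1 := by
  have hc : Commute T Tinv := by
    show T * Tinv = Tinv * T
    rw [h, h']
  rw [← hc.mul_pow, h, one_pow]

/-- **E1, unbundled core.**  `X0`, `Y1` are the `A`-linear operators "multiplication by `x`" on
`N0` and "multiplication by `y`" on `N1`; `T` and `Tinv` are mutually inverse operators on `N01`
(multiplication by `x` and by `y = x⁻¹`).  `r0`, `r1` intertwine them.  `N0` is generated over
`A[X0]` by the finite set `s0`; every element of `N01` is of the form `Tinv ^ k (r0 n)` and of the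
form `T ^ k (r1 n)`.  Then the Čech `H^1` is a finitely generated `A`-module. -/
theorem cechH1_finite_core
    (X0 : Module.End A N0) (Y1 : Module.End A N1) (T Tinv : Module.End A N01)
    (hT : T * Tinv = 1) (hT' : Tinv * T = 1)
    (r0 : N0 →ₗ[A] N01) (r1 : N1 →ₗ[A] N01)
    (h0 : ∀ n, r0 (X0 n) = T (r0 n))
    (h1 : ∀ n, r1 (Y1 n) = Tinv (r1 n))
    (s0 : Finset N0)
    (hs0 : ∀ n : N0, n ∈ span A {m : N0 | ∃ e ∈ s0, ∃ k : ℕ, m = (X0 ^ k) e})
    (hloc0 : ∀ z : N01, ∃ (k : ℕ) (n : N0), (T ^ k) z = r0 n)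
    (hloc1 : ∀ z : N01, ∃ (k : ℕ) (n : N1), (Tinv ^ k) z = r1 n) :
    Module.Finite A (N01 ⧸ (LinearMap.range r0 ⊔ LinearMap.range r1)) := by
  classical
  set P : Submodule A N01 := LinearMap.range r0 ⊔ LinearMap.range r1 with hP
  -- powers intertwine
  have h0pow : ∀ (i : ℕ) (n : N0), r0 ((X0 ^ i) n) = (T ^ i) (r0 n) := by
    intro i
    induction i with
    | zero => intro n; simp
    | succ i ih =>
      intro n
      rw [pow_succ', Module.End.mul_apply, h0, ih, pow_succ', Module.End.mul_apply]
  have h1pow : ∀ (i : ℕ) (n : N1), r1 ((Y1 ^ i) n) = (Tinv ^ i) (r1 n) := by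
    intro i
    induction i with
    | zero => intro n; simp
    | succ i ih =>
      intro n
      rw [pow_succ', Module.End.mul_apply, h1, ih, pow_succ', Module.End.mul_apply]
  have hTT : ∀ (i : ℕ) (z : N01), (Tinv ^ i) ((T ^ i) z) = z := by
    intro i z
    have := pow_mul_pow_eq_one_of_mul_eq_one hT' hT i
    rw [← Module.End.mul_apply, this, Module.End.one_apply]
  -- the exponents
  choose D w hD using fun e : N0 => hloc1 (r0 e)
  set Dmax : ℕ := s0.sup D with hDmax
  set G : Finset N01 :=
    (s0 ×ˢ Finset.range Dmax).image (fun ej : N0 × ℕ => (Tinv ^ ej.2) (r0 ej.1)) with hG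
  set Q : Submodule A N01 := P ⊔ span A (G : Set N01) with hQ
  have hPQ : P ≤ Q := le_sup_left
  have hr0Q : ∀ n, r0 n ∈ Q := fun n => hPQ (mem_sup_left (LinearMap.mem_range_self r0 n))
  have hr1Q : ∀ n, r1 n ∈ Q := fun n => hPQ (mem_sup_right (LinearMap.mem_range_self r1 n))
  -- step a
  have stepa : ∀ e ∈ s0, ∀ j : ℕ, (Tinv ^ j) (r0 e) ∈ Q := by
    intro e he j
    by_cases hj : j < Dmax
    · refine mem_sup_right (subset_span ?_)
      rw [hG, Finset.coe_image]
      exact ⟨(e, j), by simpa using ⟨he, hj⟩, rfl⟩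
    · have hDe : D e ≤ j := le_trans (Finset.le_sup (f := D) he) (not_lt.mp hj)
      obtain ⟨d, rfl⟩ := Nat.exists_eq_add_of_le hDe
      rw [add_comm, pow_add, Module.End.mul_apply, hD e, ← h1pow]
      exact hr1Q _
  -- step c
  have stepc : ∀ (k : ℕ) (n : N0), (Tinv ^ k) (r0 n) ∈ Q := by
    intro k n
    have hn := hs0 n
    induction hn using Submodule.span_induction with
    | mem m hm =>
      obtain ⟨e, he, i, rfl⟩ := hm
      rw [h0pow]
      rcases le_total k i with hki | hik
      · obtain ⟨d, rfl⟩ := Nat.exists_eq_add_of_le hki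
        rw [pow_add, Module.End.mul_apply, hTT, ← h0pow]
        exact hr0Q _
      · obtain ⟨d, rfl⟩ := Nat.exists_eq_add_of_le hik
        rw [add_comm, pow_add, Module.End.mul_apply, hTT]
        exact stepa e he d
    | zero => simp
    | add a b _ _ ha hb => rw [map_add, map_add]; exact Q.add_mem ha hb
    | smul c a _ ha => rw [map_smul, map_smul]; exact Q.smul_mem c ha
  have htop : ∀ z : N01, z ∈ Q := by
    intro z
    obtain ⟨k, n, hkn⟩ := hloc0 z
    have := stepc k n
    rwa [← hkn, hTT] at this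
  -- conclude
  have hfin : Module.Finite A (span A (G : Set N01)) :=
    Module.Finite.span_of_finite A G.finite_toSet
  refine Module.Finite.of_surjective
    ((mkQ P).comp (span A (G : Set N01)).subtype) ?_
  intro q
  obtain ⟨z, rfl⟩ := mkQ_surjective P q
  obtain ⟨p, hp, g, hg, rfl⟩ := mem_sup.mp (htop z)
  refine ⟨⟨g, hg⟩, ?_⟩
  simp only [LinearMap.coe_comp, Function.comp_apply, subtype_apply, mkQ_apply, map_add]
  rw [(Quotient.mk_eq_zero P).mpr hp, zero_add]

end Core

section Bundled

variable (A : Type*) [CommRing A]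
variable {R0 R1 : Type*} [CommRing R0] [CommRing R1] [Algebra A R0] [Algebra A R1]
variable {N0 N1 N01 : Type*} [AddCommGroup N0] [AddCommGroup N1] [AddCommGroup N01]
variable [Module A N0] [Module R0 N0] [IsScalarTower A R0 N0]
variable [Module A N1] [Module R1 N1] [IsScalarTower A R1 N1]
variable [Module A N01] [Module R0 N01] [Module R1 N01]
variable [IsScalarTower A R0 N01] [IsScalarTower A R1 N01]

/-- Finite generation of `N0` over `A[x]` in the unbundled shape used by `cechH1_finite_core`,
from: `N0` finite over `R0`, and `R0` spanned over `A` by the `x ^ k * c`, `c` in a finite set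
(i.e. `R0` is a finite `A[x]`-module). -/
theorem exists_finset_span_pow_smul (x : R0) [Module.Finite R0 N0]
    (hR : ∃ b : Finset R0, ∀ r : R0,
      r ∈ span A {m : R0 | ∃ c ∈ b, ∃ k : ℕ, m = x ^ k * c}) :
    ∃ s0 : Finset N0, ∀ n : N0,
      n ∈ span A {m : N0 | ∃ e ∈ s0, ∃ k : ℕ, m = x ^ k • e} := by
  classical
  obtain ⟨b, hb⟩ := hR
  obtain ⟨t, ht⟩ := (Module.Finite.fg_top : (⊤ : Submodule R0 N0).FG)
  refine ⟨(b ×ˢ t).image (fun ce : R0 × N0 => ce.1 • ce.2), fun n => ?_⟩
  set W : Submodule A N0 :=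
    span A {m : N0 | ∃ e ∈ (b ×ˢ t).image (fun ce : R0 × N0 => ce.1 • ce.2),
      ∃ k : ℕ, m = x ^ k • e} with hW
  have key : ∀ (r : R0) (e : N0), e ∈ t → r • e ∈ W := by
    intro r e he
    have hr := hb r
    induction hr using Submodule.span_induction with
    | mem m hm =>
      obtain ⟨c, hc, k, rfl⟩ := hm
      refine subset_span ⟨c • e, ?_, k, ?_⟩
      · exact Finset.mem_image.mpr ⟨(c, e), by simpa using ⟨hc, he⟩, rfl⟩
      · rw [mul_smul]
    | zero => rw [zero_smul]; exact W.zero_mem
    | add a c _ _ ha hc => rw [add_smul]; exact W.add_mem ha hc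
    | smul a c _ hc => rw [smul_assoc]; exact W.smul_mem a hc
  have key2 : ∀ n ∈ span R0 (t : Set N0), ∀ r : R0, r • n ∈ W := by
    intro n hn
    induction hn using Submodule.span_induction with
    | mem m hm => intro r; exact key r m hm
    | zero => intro r; rw [smul_zero]; exact W.zero_mem
    | add a c _ _ ha hc => intro r; rw [smul_add]; exact W.add_mem (ha r) (hc r)
    | smul r' a _ ha => intro r; rw [smul_smul]; exact ha (r * r')
  have hn : n ∈ span R0 (t : Set N0) := by rw [ht]; exact mem_top
  simpa using key2 n hn 1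

/-- **E1, bundled.**  `R0`, `R1` are `A`-algebras, `x : R0`, `y : R1`; `N01` is a module over both
with `x • y • z = z`; `r0 : N0 → N01` is the localization away from `x`, `r1 : N1 → N01` the
localization away from `y`; `N0` is finitely generated over `A[x]` (in the shape produced by
`exists_finset_span_pow_smul`).  Then `N01 ⧸ (r0 N0 + r1 N1)` is a finitely generated
`A`-module. -/
theorem cechH1_finite (x : R0) (y : R1) (hxy : ∀ z : N01, x • y • z = z)
    (r0 : N0 →ₗ[R0] N01) (r1 : N1 →ₗ[R1] N01)
    [IsLocalizedModule (Submonoid.powers x) r0] [IsLocalizedModule (Submonoid.powers y) r1]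
    (hfg : ∃ s0 : Finset N0, ∀ n : N0,
      n ∈ span A {m : N0 | ∃ e ∈ s0, ∃ k : ℕ, m = x ^ k • e}) :
    Module.Finite A (N01 ⧸ (LinearMap.range (r0.restrictScalars A) ⊔
      LinearMap.range (r1.restrictScalars A))) := by
  classical
  obtain ⟨s0, hs0⟩ := hfg
  -- the operators
  let X0 : Module.End A N0 := Algebra.lsmul A A N0 x
  let Y1 : Module.End A N1 := Algebra.lsmul A A N1 y
  let T : Module.End A N01 := Algebra.lsmul A A N01 x
  let Tinv : Module.End A N01 := Algebra.lsmul A A N01 y
  have hXpow : ∀ (k : ℕ) (n : N0), (X0 ^ k) n = x ^ k • n := by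
    intro k n
    show ((Algebra.lsmul A A N0 x) ^ k) n = _
    rw [← map_pow]; rfl
  have hTpow : ∀ (k : ℕ) (z : N01), (T ^ k) z = x ^ k • z := by
    intro k n
    show ((Algebra.lsmul A A N01 x) ^ k) n = _
    rw [← map_pow]; rfl
  have hTinvpow : ∀ (k : ℕ) (z : N01), (Tinv ^ k) z = y ^ k • z := by
    intro k n
    show ((Algebra.lsmul A A N01 y) ^ k) n = _
    rw [← map_pow]; rfl
  -- `x` acts bijectively on `N01`
  have hxbij : Function.Bijective (fun z : N01 => x • z) := by
    have hu := IsLocalizedModule.map_units r0 (⟨x, Submonoid.mem_powers x⟩ : Submonoid.powers x)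
    have := (Module.End.isUnit_iff _).mp hu
    exact this
  have hT : T * Tinv = 1 := by
    ext z
    exact hxy z
  have hT' : Tinv * T = 1 := by
    ext z
    apply hxbij.1
    show x • (y • (x • z)) = x • z
    exact hxy (x • z)
  refine cechH1_finite_core X0 Y1 T Tinv hT hT' (r0.restrictScalars A) (r1.restrictScalars A)
    (fun n => ?_) (fun n => ?_) s0 (fun n => ?_) (fun z => ?_) (fun z => ?_)
  · exact r0.map_smul x n
  · exact r1.map_smul y n
  · have := hs0 n
    simpa only [hXpow] using this
  · obtain ⟨⟨n, ⟨_, k, rfl⟩⟩, hn⟩ := IsLocalizedModule.surj (Submonoid.powers x) r0 z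
    exact ⟨k, n, by rw [hTpow]; exact hn⟩
  · obtain ⟨⟨n, ⟨_, k, rfl⟩⟩, hn⟩ := IsLocalizedModule.surj (Submonoid.powers y) r1 z
    exact ⟨k, n, by rw [hTinvpow]; exact hn⟩

/-- The finite-generation hypothesis of `cechH1_finite` for `R0 = A[X]`, `x = X`. -/
theorem exists_finset_span_pow_smul_polynomial {N0 : Type*} [AddCommGroup N0] [Module A N0]
    [Module (Polynomial A) N0] [IsScalarTower A (Polynomial A) N0]
    [Module.Finite (Polynomial A) N0] :
    ∃ s0 : Finset N0, ∀ n : N0,
      n ∈ span A {m : N0 | ∃ e ∈ s0, ∃ k : ℕ, m = (Polynomial.X : Polynomial A) ^ k • e} := by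
  classical
  refine exists_finset_span_pow_smul A (Polynomial.X : Polynomial A) ⟨{1}, fun r => ?_⟩
  induction r using Polynomial.induction_on' with
  | add p q hp hq => exact add_mem hp hq
  | monomial k a =>
    rw [← Polynomial.C_mul_X_pow_eq_monomial, ← Polynomial.algebraMap_eq, ← Algebra.smul_def]
    exact smul_mem _ _ (subset_span ⟨1, by simp, k, by simp⟩)

end Bundled

end Fermat.Agent.S25.H790
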