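/-
S25, block CECH, leaf K2 (helper790): twisting kills `H¹`.

* `H1_finite`                  : `H¹(L(m∞))` is a finitely generated `A`-module (= E1).
* `exists_forall_d_surjective` : for `m` large the twisted differential `d m` is surjective.

Statements exactly as in `origin/helper10:Fermat/Agent/S25/H10/CechSkel.lean`.
-/
import Fermat.Agent.S25.H10.CechDefs
import Fermat.Agent.S25.H790.CechE1

set_option autoImplicit false

namespace Fermat.Agent.S25.H790

open Fermat.Agent.S25.H10 Submodule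

universe u v

variable {A : Type u} [CommRing A] {N0 N1 N01 : Type v}
  [AddCommGroup N0] [AddCommGroup N1] [AddCommGroup N01]
  [Module A N0] [Module A N1] [Module A N01]

/-- The range of the twisted differential is `r0 N0 + T^m r1 N1`. -/
theorem range_d_eq (D : CechOps A N0 N1 N01) (m : ℕ) :
    LinearMap.range (D.d m) = LinearMap.range D.r0 ⊔ LinearMap.range ((D.T ^ m) ∘ₗ D.r1) := by
  rw [CechOps.d, LinearMap.range_coprod, LinearMap.range_neg]

/-- `T` and `Tinv ^ k` commute. -/
theorem T_pow_Tinv_pow_comm (D : CechOps A N0 N1 N01) (m k : ℕ) (z : N01) :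
    (D.T ^ m) ((D.Tinv ^ k) z) = (D.Tinv ^ k) ((D.T ^ m) z) := by
  have h : Commute (D.T ^ m) (D.Tinv ^ k) := (D.commute_T_Tinv.pow_left m).pow_right k
  rw [← Module.End.mul_apply, h.eq, Module.End.mul_apply]

/-- `T^k r1 N1 ⊆ T^m r1 N1` for `k ≤ m`. -/
theorem range_T_pow_r1_mono (D : CechOps A N0 N1 N01) {k m : ℕ} (hkm : k ≤ m) :
    LinearMap.range ((D.T ^ k) ∘ₗ D.r1) ≤ LinearMap.range ((D.T ^ m) ∘ₗ D.r1) := by
  rintro _ ⟨n, rfl⟩
  obtain ⟨j, rfl⟩ := Nat.exists_eq_add_of_le hkm
  refine ⟨(D.Y1 ^ j) n, ?_⟩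
  simp only [LinearMap.coe_comp, Function.comp_apply]
  rw [D.r1_Y1_pow, pow_add, Module.End.mul_apply, D.T_pow_Tinv_pow_apply]

/-- **K2a** (= E1 in the language of `CechOps`). -/
theorem H1_finite (D : CechOps A N0 N1 N01) (h0 : IsFG D.X0) (m : ℕ) :
    Module.Finite A (D.H1 m) := by
  obtain ⟨s0, hs0⟩ := h0
  have key : Module.Finite A
      (N01 ⧸ (LinearMap.range D.r0 ⊔ LinearMap.range ((D.T ^ m) ∘ₗ D.r1))) := by
    refine cechH1_finite_core D.X0 D.Y1 D.T D.Tinv D.T_mul_Tinv D.Tinv_mul_T D.r0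
      ((D.T ^ m) ∘ₗ D.r1) D.r0_X0 (fun n => ?_) s0 hs0 D.loc0 (fun z => ?_)
    · simp only [LinearMap.coe_comp, Function.comp_apply]
      rw [D.r1_Y1]
      have := T_pow_Tinv_pow_comm D m 1 (D.r1 n)
      simpa using this
    · obtain ⟨k, n, hk⟩ := D.loc1 ((D.Tinv ^ m) z)
      refine ⟨k, n, ?_⟩
      simp only [LinearMap.coe_comp, Function.comp_apply]
      rw [← hk, T_pow_Tinv_pow_comm, D.T_pow_Tinv_pow_apply]
  have hrange := range_d_eq D m
  show Module.Finite A (N01 ⧸ LinearMap.range (D.d m))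
  rw [hrange]
  exact key

/-- **K2.** For `m` large the twisted differential is surjective. -/
theorem exists_forall_d_surjective (D : CechOps A N0 N1 N01) (h0 : IsFG D.X0) :
    ∃ m0 : ℕ, ∀ m, m0 ≤ m → Function.Surjective (D.d m) := by
  classical
  -- finitely many generators of `H¹(L)`
  have hfin : Module.Finite A (D.H1 0) := H1_finite D h0 0
  obtain ⟨G, hG⟩ := (Module.Finite.fg_top : (⊤ : Submodule A (D.H1 0)).FG)
  -- lift them to `N01` and choose exponents
  have hlift : ∀ g : D.H1 0, ∃ z : N01, (LinearMap.range (D.d 0)).mkQ z = g :=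
    fun g => mkQ_surjective _ g
  choose lift hliftspec using hlift
  choose K w hK using fun z : N01 => D.loc1 z
  refine ⟨G.sup (fun g => K (lift g)), fun m hm => ?_⟩
  rw [← LinearMap.range_eq_top, range_d_eq]
  set P : Submodule A N01 := LinearMap.range D.r0 ⊔ LinearMap.range ((D.T ^ m) ∘ₗ D.r1) with hP
  -- `range (d 0) ≤ P`
  have h0P : LinearMap.range (D.d 0) ≤ P := by
    rw [range_d_eq]
    exact sup_le_sup_left (range_T_pow_r1_mono D (Nat.zero_le m)) _
  -- the lifted generators lie in `P`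
  have hgen : ∀ g ∈ G, lift g ∈ P := by
    intro g hg
    have hle : K (lift g) ≤ m := le_trans (Finset.le_sup (f := fun g => K (lift g)) hg) hm
    refine mem_sup_right (range_T_pow_r1_mono D hle ⟨w (lift g), ?_⟩)
    simp only [LinearMap.coe_comp, Function.comp_apply]
    rw [← hK, D.T_pow_Tinv_pow_apply]
  -- conclude
  rw [eq_top_iff]
  intro z _
  have hz : (LinearMap.range (D.d 0)).mkQ z ∈ span A (G : Set (D.H1 0)) := by
    rw [hG]; exact mem_top
  -- every element of the span of `G` has a representative in `P`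
  have hspan : ∀ q ∈ span A (G : Set (D.H1 0)),
      ∃ p ∈ P, (LinearMap.range (D.d 0)).mkQ p = q := by
    intro q hq
    induction hq using Submodule.span_induction with
    | mem g hg => exact ⟨lift g, hgen g hg, hliftspec g⟩
    | zero => exact ⟨0, P.zero_mem, by simp⟩
    | add a b _ _ ha hb =>
      obtain ⟨pa, hpa, rfl⟩ := ha
      obtain ⟨pb, hpb, rfl⟩ := hb
      exact ⟨pa + pb, P.add_mem hpa hpb, by simp⟩
    | smul c a _ ha =>
      obtain ⟨pa, hpa, rfl⟩ := ha
      exact ⟨c • pa, P.smul_mem c hpa, by simp⟩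
  obtain ⟨p, hp, hpz⟩ := hspan _ hz
  have hdiff : z - p ∈ LinearMap.range (D.d 0) := by
    rw [← Submodule.Quotient.mk_eq_zero, Submodule.Quotient.mk_sub, sub_eq_zero]
    exact hpz.symm
  have : z = (z - p) + p := by abel
  rw [this]
  exact P.add_mem (h0P hdiff) hp

end Fermat.Agent.S25.H790
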