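import Mathlib

/-!
# S25 / ALGCHARTS, leaf ST2 (helper790): general module lemmas

Mathlib-only lemmas used by `H790/ACStage2.lean`:

* `exists_splitting` : a surjection `g : M → P` onto a projective module has a section `σ` and a
  retraction `π` onto its kernel with `π m = m - σ (g m)`;
* `finite_ker_of_surjective`, `projective_ker_of_surjective`;
* `rankAtStalk_eq_ker_add` : `rank M = rank (ker g) + rank P`;
* `injective_of_surjective_of_rankAtStalk_eq_one` : a surjection from a finite projective module
  of rank one onto the ring is injective;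
* `span_image_eq_top_iff_subsingleton` : for a base change `N' = A' ⊗ N` (given by an
  equivalence) and an `A`-submodule `W` of `N`, the image of `W` spans `N'` iff
  `A' ⊗ (N ⧸ W) = 0`.
-/

set_option autoImplicit false
set_option linter.style.haveILetI false

namespace Fermat.Agent.S25.H790

open TensorProduct

section Split

variable {A : Type*} [CommRing A] {M P : Type*} [AddCommGroup M] [Module A M]
  [AddCommGroup P] [Module A P]

/-- A surjection onto a projective module has a section `σ` and a retraction `π` onto its
kernel, with `π m = m - σ (g m)`. -/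
theorem exists_splitting (g : M →ₗ[A] P) (hg : Function.Surjective g) [Module.Projective A P] :
    ∃ (σ : P →ₗ[A] M) (π : M →ₗ[A] LinearMap.ker g),
      (∀ p, g (σ p) = p) ∧ (∀ m, ((π m : LinearMap.ker g) : M) = m - σ (g m)) := by
  obtain ⟨σ, hσ⟩ := Module.projective_lifting_property g LinearMap.id hg
  have hσ' : ∀ p, g (σ p) = p := fun p => LinearMap.congr_fun hσ p
  have hmem : ∀ m : M, ((LinearMap.id : M →ₗ[A] M) - σ ∘ₗ g) m ∈ LinearMap.ker g := by
    intro m
    rw [LinearMap.mem_ker, LinearMap.sub_apply, map_sub, LinearMap.id_apply,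
      LinearMap.comp_apply, hσ', sub_self]
  exact ⟨σ, (LinearMap.id - σ ∘ₗ g).codRestrict (LinearMap.ker g) hmem, hσ', fun m => rfl⟩

/-- The kernel of a surjection onto a projective module is a direct factor: the equivalence
`M ≃ ker g × P`. -/
theorem exists_equiv_ker_prod (g : M →ₗ[A] P) (hg : Function.Surjective g)
    [Module.Projective A P] :
    ∃ e : M ≃ₗ[A] (LinearMap.ker g × P), ∀ m, (e m).2 = g m := by
  obtain ⟨σ, π, hσ, hπ⟩ := exists_splitting g hg
  have hπk : ∀ k : LinearMap.ker g, π k = k := by
    intro k
    apply Subtype.ext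
    rw [hπ, LinearMap.mem_ker.mp k.2, map_zero, sub_zero]
  have hπσ : ∀ p, π (σ p) = 0 := by
    intro p
    apply Subtype.ext
    rw [hπ, hσ, sub_self]
    rfl
  refine ⟨LinearEquiv.ofLinearMap (π.prod g) ((LinearMap.ker g).subtype.coprod σ) ?_ ?_, ?_⟩
  · apply LinearMap.ext
    rintro ⟨k, p⟩
    apply Prod.ext
    · simp [hπk, hπσ]
    · simp [hσ, LinearMap.mem_ker.mp k.2]
  · apply LinearMap.ext
    intro m
    simp [hπ]
  · intro m
    rfl

theorem finite_ker_of_surjective (g : M →ₗ[A] P) (hg : Function.Surjective g)
    [Module.Projective A P] [Module.Finite A M] : Module.Finite A (LinearMap.ker g) := by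
  obtain ⟨σ, π, hσ, hπ⟩ := exists_splitting g hg
  refine Module.Finite.of_surjective π (fun k => ⟨k, ?_⟩)
  apply Subtype.ext
  rw [hπ, LinearMap.mem_ker.mp k.2, map_zero, sub_zero]

theorem projective_ker_of_surjective (g : M →ₗ[A] P) (hg : Function.Surjective g)
    [Module.Projective A P] [Module.Projective A M] :
    Module.Projective A (LinearMap.ker g) := by
  obtain ⟨σ, π, hσ, hπ⟩ := exists_splitting g hg
  refine Module.Projective.of_split (LinearMap.ker g).subtype π (LinearMap.ext fun k => ?_)
  apply Subtype.ext
  simp only [LinearMap.comp_apply, Submodule.subtype_apply, LinearMap.id_apply]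
  rw [hπ, LinearMap.mem_ker.mp k.2, map_zero, sub_zero]

/-- Additivity of the rank for a surjection of finite projective modules. -/
theorem rankAtStalk_eq_ker_add (g : M →ₗ[A] P) (hg : Function.Surjective g)
    [Module.Finite A M] [Module.Projective A M] [Module.Finite A P] [Module.Projective A P]
    (p : PrimeSpectrum A) :
    Module.rankAtStalk (R := A) M p =
      Module.rankAtStalk (R := A) (LinearMap.ker g) p + Module.rankAtStalk (R := A) P p := by
  haveI := finite_ker_of_surjective g hg
  haveI := projective_ker_of_surjective g hg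
  obtain ⟨e, -⟩ := exists_equiv_ker_prod g hg
  have h := congrFun (Module.rankAtStalk_eq_of_equiv e) p
  rw [Module.rankAtStalk_prod] at h
  exact h

/-- A surjection from a finite projective module of rank one onto the ring is injective. -/
theorem injective_of_surjective_of_rankAtStalk_eq_one [Module.Finite A M]
    [Module.Projective A M] (hrank : ∀ p : PrimeSpectrum A, Module.rankAtStalk (R := A) M p = 1)
    (f : M →ₗ[A] A) (hf : Function.Surjective f) : Function.Injective f := by
  haveI := finite_ker_of_surjective f hf
  haveI := projective_ker_of_surjective f hf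
  have hker : Module.rankAtStalk (R := A) (LinearMap.ker f) = 0 := by
    funext p
    haveI : Nontrivial A := p.nontrivial
    have h := rankAtStalk_eq_ker_add f hf p
    rw [hrank p, Module.rankAtStalk_self] at h
    simpa using h
  have hsub : Subsingleton (LinearMap.ker f) := Module.rankAtStalk_eq_zero_iff_subsingleton.mp hker
  rw [← LinearMap.ker_eq_bot]
  exact Submodule.eq_bot_of_subsingleton

end Split

section Span

variable {A : Type*} [CommRing A] {A' : Type*} [CommRing A'] [Algebra A A']
  {N : Type*} [AddCommGroup N] [Module A N]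
  {N' : Type*} [AddCommGroup N'] [Module A' N']

/-- For a comparison isomorphism `E : A' ⊗[A] N ≃ N'` with `E (s ⊗ n) = s • b n` and an
`A`-submodule `W` of `N`: the image of `W` spans `N'` over `A'` iff `A' ⊗[A] (N ⧸ W) = 0`. -/
theorem span_image_eq_top_iff_subsingleton (E : A' ⊗[A] N ≃ₗ[A'] N') (b : N → N')
    (hE : ∀ (s : A') (n : N), E (s ⊗ₜ[A] n) = s • b n) (W : Submodule A N) :
    Submodule.span A' (b '' (W : Set N)) = ⊤ ↔ Subsingleton (A' ⊗[A] (N ⧸ W)) := by
  have hb : ∀ n, b n = E ((1 : A') ⊗ₜ[A] n) := fun n => by rw [hE, one_smul]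
  have hex : Function.Exact W.subtype W.mkQ := LinearMap.exact_subtype_mkQ W
  have hex' := lTensor_exact A' hex (Submodule.mkQ_surjective W)
  have hsurj' : Function.Surjective (W.mkQ.lTensor A') :=
    LinearMap.lTensor_surjective A' (Submodule.mkQ_surjective W)
  -- the span is the image of `A' ⊗ W`
  have hspan : ∀ t : A' ⊗[A] N, E t ∈ Submodule.span A' (b '' (W : Set N)) ↔
      t ∈ LinearMap.range (W.subtype.lTensor A') := by
    intro t
    constructor
    · intro ht
      have key : ∀ c ∈ Submodule.span A' (b '' (W : Set N)),
          E.symm c ∈ LinearMap.range (W.subtype.baseChange A') := by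
        intro c hc
        induction hc using Submodule.span_induction with
        | mem c hc =>
          obtain ⟨w, hw, rfl⟩ := hc
          refine ⟨(1 : A') ⊗ₜ[A] (⟨w, hw⟩ : W), ?_⟩
          rw [LinearMap.baseChange_tmul, hb, LinearEquiv.symm_apply_apply]
          rfl
        | zero => rw [map_zero]; exact Submodule.zero_mem _
        | add c d _ _ hc hd => rw [map_add]; exact Submodule.add_mem _ hc hd
        | smul a c _ hc => rw [map_smul]; exact Submodule.smul_mem _ a hc
      have := key _ ht
      rw [LinearEquiv.symm_apply_apply] at this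
      obtain ⟨u, hu⟩ := this
      exact ⟨u, by rw [← hu]; exact (congrFun (LinearMap.baseChange_eq_ltensor
        (A := A') W.subtype) u).symm⟩
    · rintro ⟨u, rfl⟩
      induction u using TensorProduct.induction_on with
      | zero => simp
      | add u v hu hv => rw [map_add, map_add]; exact Submodule.add_mem _ hu hv
      | tmul s w =>
        rw [LinearMap.lTensor_tmul, hE]
        exact Submodule.smul_mem _ s (Submodule.subset_span ⟨w, w.2, rfl⟩)
  constructor
  · intro htop
    refine ⟨fun a c => ?_⟩
    have hzero : ∀ z : A' ⊗[A] (N ⧸ W), z = 0 := by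
      intro z
      obtain ⟨t, rfl⟩ := hsurj' z
      have ht : E t ∈ Submodule.span A' (b '' (W : Set N)) := by rw [htop]; exact Submodule.mem_top
      exact (hex' t).mpr ((hspan t).mp ht)
    rw [hzero a, hzero c]
  · intro hsub
    rw [Submodule.eq_top_iff']
    intro c
    obtain ⟨t, rfl⟩ := E.surjective c
    rw [hspan]
    exact (hex' t).mp (Subsingleton.elim _ _)

end Span

end Fermat.Agent.S25.H790
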