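import Fermat.Agent.S25.H11.ACLeaves
import Fermat.Agent.S25.H791.ACStage1
import Fermat.Agent.S25.H446.PtIdeal
import Fermat.Agent.S25.H970.ACSec
import Fermat.Agent.S25.H250.DegSec
import Fermat.Agent.S25.H205.ACGdc
import Fermat.Agent.S25.H671.ACGen
import Fermat.Agent.S25.H790.ACBase

/-!
# S25 / ALGCHARTS, leaf ST2 (helper790): the locus where `H⁰(G(nE₀ - Σq))` is free of rank
one on a section generating `N₁` modulo `y`

`stage2_locus` : exact statement of `coord/S25-ALGCHARTS-skeleton.lean` (squad-lead helper11);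
`leaf_stage2 : H11.Leaf.Stage2 k B₀ B₁ B₀₁`.

The ideal is the annihilator of the finitely generated `A`-module `N₁ ⧸ genSub`, where
`genSub = (A ⊗ B₁) · snd (H⁰(G(nE₀ - Σq))) + y N₁`.

Reusable:
* `evq x n q G : sec x n G →ₗ[A] N₀ ⧸ I_q N₀`, `evq_surjective` (under `P1`), `mem_ker_evq`;
* `finite_ker_evq`, `projective_ker_evq`, `rankAtStalk_sec_add`, `rankAtStalk_ker_evq` :
  under `P1`, `Deg0` and `m + g = n d` the module `H⁰(G(nE₀ - Σq))` is finite projective of
  rank one over `A`;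
* `rig_surjective`, `rig_eq_zero_of_mem`, `rigLin` : a rigidification is onto and kills `y N₁`;
* `p2_iff_genSub_eq_top` : `P2 ↔ genSub = ⊤` (under `P1`);
* `mem_span_bc_of_mem_secq` : under `P1` for `G`, the sections of `G'(nE₀ - Σq)` are
  `A'`-combinations of base-changed sections of `G(nE₀ - Σq)`;
* `smul_mem_span_bc`, `bc_mem_genSub`, `genSub_bc_eq_top_iff`, `finite_quotient_genSub`;
* `p1_of_isBC` : `P1` is stable under base change;
* `p2_iff_annihilator_map`.
-/

set_option autoImplicit false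
set_option linter.style.haveILetI false
set_option linter.unusedSectionVars false

universe u

open scoped TensorProduct

namespace Fermat.Agent.S25.H790

open Fermat.Agent.S25 Fermat.Agent.S25.H11

variable {k : Type u} [Field k]
  {B₀ B₁ B₀₁ : Type u} [CommRing B₀] [CommRing B₁] [CommRing B₀₁]
  [Algebra k B₀] [Algebra k B₁] [Algebra k B₀₁] [Algebra B₀ B₀₁] [Algebra B₁ B₀₁]
  [IsScalarTower k B₀ B₀₁] [IsScalarTower k B₁ B₀₁]
  {x : B₀} {y : B₁} {e : B₁ →ₐ[k] k}

section One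

variable {A : Type u} [CommRing A] [Algebra k A]

/-- Evaluation of the sections of `G(nE₀)` on the divisor `Σ q i`. -/
noncomputable def evq (x : B₀) (n : ℕ) {m : ℕ} (q : Fin m → (B₀ →ₐ[k] k))
    (G : CurveGD k B₀ B₁ B₀₁ A) : sec x n G →ₗ[A] (G.N₀ ⧸ vanq q G) :=
  ((vanq q G).mkQ.restrictScalars A) ∘ₗ (LinearMap.fst A G.N₀ G.N₁) ∘ₗ (sec x n G).subtype

theorem evq_apply (n : ℕ) {m : ℕ} (q : Fin m → (B₀ →ₐ[k] k)) (G : CurveGD k B₀ B₁ B₀₁ A)
    (s : sec x n G) : evq x n q G s = Submodule.Quotient.mk (s : G.N₀ × G.N₁).1 := rfl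

theorem evq_surjective {n : ℕ} {m : ℕ} {q : Fin m → (B₀ →ₐ[k] k)}
    {G : CurveGD k B₀ B₁ B₀₁ A} (h1 : P1 x n q G) : Function.Surjective (evq x n q G) := by
  intro z
  obtain ⟨a, rfl⟩ := Submodule.Quotient.mk_surjective _ z
  obtain ⟨s, hs, hv⟩ := h1.2 a
  refine ⟨⟨s, hs⟩, ?_⟩
  rw [evq_apply]
  exact ((Submodule.Quotient.eq _).mpr hv).symm

theorem mem_ker_evq {n : ℕ} {m : ℕ} {q : Fin m → (B₀ →ₐ[k] k)}
    {G : CurveGD k B₀ B₁ B₀₁ A} {s : sec x n G} :
    s ∈ LinearMap.ker (evq x n q G) ↔ (s : G.N₀ × G.N₁) ∈ secq x n q G := by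
  rw [LinearMap.mem_ker, mem_secq, evq_apply, Submodule.Quotient.mk_eq_zero]
  exact ⟨fun h => ⟨s.2, h⟩, fun h => h.2⟩

end One

section Rank

variable [IsAlgClosed k] {A : Type u} [CommRing A] [Algebra k A]

theorem finite_ker_evq (hC : IsCurveChart k B₀ B₁ B₀₁ x y e) {n : ℕ} {m : ℕ}
    {q : Fin m → (B₀ →ₐ[k] k)} {G : CurveGD k B₀ B₁ B₀₁ A} (h1 : P1 x n q G) :
    Module.Finite A (LinearMap.ker (evq x n q G)) := by
  haveI := H446.vanq_quotient_projective hC q G
  haveI := H970.sec_finite hC n G h1.1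
  exact finite_ker_of_surjective _ (evq_surjective h1)

theorem projective_ker_evq (hC : IsCurveChart k B₀ B₁ B₀₁ x y e) {n : ℕ} {m : ℕ}
    {q : Fin m → (B₀ →ₐ[k] k)} {G : CurveGD k B₀ B₁ B₀₁ A} (h1 : P1 x n q G) :
    Module.Projective A (LinearMap.ker (evq x n q G)) := by
  haveI := H446.vanq_quotient_projective hC q G
  haveI := H970.sec_projective hC n G h1.1
  exact projective_ker_of_surjective _ (evq_surjective h1)

/-- The rank of `H⁰(G(nE₀))` at every prime of the base is `n d + 1 - g`. -/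
theorem rankAtStalk_sec_add (hC : IsCurveChart k B₀ B₁ B₀₁ x y e) (n : ℕ)
    (G : CurveGD k B₀ B₁ B₀₁ A) (hdeg : G.Deg0) (h0 : P0 x n G) (p : PrimeSpectrum A) :
    Module.rankAtStalk (R := A) (sec x n G) p +
        Module.finrank k (GlueDatum.unit k (k ⊗[k] B₀) (k ⊗[k] B₁) (k ⊗[k] B₀₁)).H1 =
      n * Module.finrank k (B₁ ⧸ Ideal.span {y}) + 1 := by
  let φ : A →ₐ[k] p.asIdeal.ResidueField := IsScalarTower.toAlgHom k A p.asIdeal.ResidueField
  obtain ⟨Gκ, hGκ⟩ := H205.gdc_exists (B₀ := B₀) (B₁ := B₁) (B₀₁ := B₀₁) φ G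
  have hdegκ : Gκ.degree = 0 := hdeg _ φ Gκ hGκ
  obtain ⟨bm⟩ := hGκ
  have h0κ : P0 x n Gκ := H970.P0_of_baseChangeMaps hC.mul_eq_one φ bm n h0
  obtain ⟨hfin, hrk⟩ := H250.finrank_sec hC Gκ hdegκ n h0κ
  have hr := H970.rankAtStalk_sec_eq hC φ bm n h0 ⟨⊥, Ideal.isPrime_bot⟩
  have hp : PrimeSpectrum.comap φ.toRingHom ⟨⊥, Ideal.isPrime_bot⟩ = p := by
    apply PrimeSpectrum.ext
    change Ideal.comap (algebraMap A p.asIdeal.ResidueField) ⊥ = p.asIdeal
    rw [← RingHom.ker_eq_comap_bot, Ideal.ker_algebraMap_residueField]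
  rw [hp, Module.rankAtStalk_eq_finrank_of_free] at hr
  rw [← hr]
  exact hrk

/-- Under `P1`, with `m + g = n d`, the module `H⁰(G(nE₀ - Σq))` has rank one. -/
theorem rankAtStalk_ker_evq (hC : IsCurveChart k B₀ B₁ B₀₁ x y e) (i : ChartIndex k B₀)
    (hnum : i.Numeric B₀₁ y) (G : CurveGD k B₀ B₁ B₀₁ A) (hdeg : G.Deg0)
    (h1 : P1 x i.n i.q G) (p : PrimeSpectrum A) :
    Module.rankAtStalk (R := A) (LinearMap.ker (evq x i.n i.q G)) p = 1 := by
  haveI := H446.vanq_quotient_projective hC i.q G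
  haveI := H446.vanq_quotient_finite hC i.q G
  haveI := H970.sec_projective hC i.n G h1.1
  haveI := H970.sec_finite hC i.n G h1.1
  have hadd := rankAtStalk_eq_ker_add (evq x i.n i.q G) (evq_surjective h1) p
  have hE := H446.vanq_quotient_rank hC i.q G p
  have hsec := rankAtStalk_sec_add hC i.n G hdeg h1.1 p
  obtain ⟨hn1, hn2⟩ := hnum
  rw [hE] at hadd
  rw [hadd, ← hn1, ← hn2] at hsec
  omega

end Rank

section Gen

variable {A : Type u} [CommRing A] [Algebra k A]

/-- The `A ⊗ B₁`-submodule of `N₁` generated by the second components of the sections of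
`G(nE₀ - Σq)` and by `y N₁`. -/
def genSub (x : B₀) (y : B₁) (n : ℕ) {m : ℕ} (q : Fin m → (B₀ →ₐ[k] k))
    (G : CurveGD k B₀ B₁ B₀₁ A) : Submodule (A ⊗[k] B₁) G.N₁ :=
  Submodule.span (A ⊗[k] B₁) (Prod.snd '' (secq x n q G : Set (G.N₀ × G.N₁))) ⊔
    (Ideal.span {yElt k A y} • ⊤ : Submodule (A ⊗[k] B₁) G.N₁)

theorem genSub_eq_top_of_isGen {n : ℕ} {m : ℕ} {q : Fin m → (B₀ →ₐ[k] k)}
    {G : CurveGD k B₀ B₁ B₀₁ A} {s : G.N₀ × G.N₁} (hs : IsGen x y n q G s) :
    genSub x y n q G = ⊤ := by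
  rw [Submodule.eq_top_iff']
  intro c
  obtain ⟨r, hr⟩ := hs.gen c
  have : c = r • s.2 + (c - r • s.2) := by abel
  rw [this]
  exact Submodule.add_mem _
    (Submodule.mem_sup_left (Submodule.smul_mem _ r (Submodule.subset_span ⟨s, hs.mem, rfl⟩)))
    (Submodule.mem_sup_right hr)

/-- A rigidification is surjective. -/
theorem rig_surjective {G : CurveGD k B₀ B₁ B₀₁ A}
    (b : G.N₁ →ₛₗ[(epsHom e A).toRingHom] A) (hb : IsSemilinearBaseChange _ b) :
    Function.Surjective b := by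
  intro z
  refine H671.sbc_induction _ b hb (fun z => ∃ n, b n = z) ⟨0, map_zero _⟩
    (fun n => ⟨n, rfl⟩) ?_ ?_ z
  · rintro r' _ ⟨n, rfl⟩
    refine ⟨((r' : A) ⊗ₜ[k] (1 : B₁)) • n, ?_⟩
    rw [b.map_smulₛₗ]
    simp [epsHom]
  · rintro _ _ ⟨n₁, rfl⟩ ⟨n₂, rfl⟩
    exact ⟨n₁ + n₂, map_add _ _ _⟩

/-- A rigidification kills `y N₁`. -/
theorem rig_eq_zero_of_mem (hC : IsCurveChart k B₀ B₁ B₀₁ x y e) {G : CurveGD k B₀ B₁ B₀₁ A}
    (b : G.N₁ →ₛₗ[(epsHom e A).toRingHom] A) {v : G.N₁}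
    (hv : v ∈ (Ideal.span {yElt k A y} • ⊤ : Submodule (A ⊗[k] B₁) G.N₁)) : b v = 0 := by
  refine Submodule.smul_induction_on hv (fun r hr n _ => ?_)
    (fun a c ha hc => by rw [map_add, ha, hc, add_zero])
  obtain ⟨t, rfl⟩ := Ideal.mem_span_singleton'.1 hr
  rw [b.map_smulₛₗ]
  have : (epsHom e A).toRingHom (t * yElt k A y) = 0 := by
    change epsHom e A (t * yElt k A y) = 0
    rw [map_mul, H671.epsHom_yElt hC, mul_zero]
  rw [this, zero_smul]

/-- The `A`-linear map underlying a rigidification. -/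
def rigLin {G : CurveGD k B₀ B₁ B₀₁ A} (b : G.N₁ →ₛₗ[(epsHom e A).toRingHom] A) :
    G.N₁ →ₗ[A] A where
  toFun := b
  map_add' := b.map_add
  map_smul' a n := by
    rw [← algebraMap_smul (A ⊗[k] B₁) a n, b.map_smulₛₗ]
    have : (epsHom e A).toRingHom (algebraMap A (A ⊗[k] B₁) a) = a := by
      change epsHom e A (algebraMap A (A ⊗[k] B₁) a) = a
      rw [AlgHom.commutes]
      rfl
    rw [this]
    rfl

@[simp] theorem rigLin_apply {G : CurveGD k B₀ B₁ B₀₁ A}
    (b : G.N₁ →ₛₗ[(epsHom e A).toRingHom] A) (n : G.N₁) : rigLin b n = b n := rfl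

end Gen

section Free

variable [IsAlgClosed k] {A : Type u} [CommRing A] [Algebra k A]

/-- If the sections of `G(nE₀ - Σq)` generate `N₁` modulo `y`, then `H⁰(G(nE₀ - Σq))` is free
of rank one on a section which generates `N₁` modulo `y`. -/
theorem exists_isGen_of_genSub_eq_top (hC : IsCurveChart k B₀ B₁ B₀₁ x y e)
    (i : ChartIndex k B₀) (hnum : i.Numeric B₀₁ y) (G : CurveGD k B₀ B₁ B₀₁ A)
    (hrig : G.Rigidifiable e) (hdeg : G.Deg0) (h1 : P1 x i.n i.q G)
    (htop : genSub x y i.n i.q G = ⊤) : ∃ s, IsGen x y i.n i.q G s := by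
  obtain ⟨b, hb⟩ := hrig
  -- the ideal of values of the rigidification on the sections
  let I : Submodule A A := (secq x i.n i.q G).map (rigLin b ∘ₗ LinearMap.snd A G.N₀ G.N₁)
  have hspanI : ∀ u ∈ Submodule.span (A ⊗[k] B₁)
      (Prod.snd '' (secq x i.n i.q G : Set (G.N₀ × G.N₁))), b u ∈ I := by
    intro u hu
    induction hu using Submodule.span_induction with
    | mem u hu =>
      obtain ⟨t, ht, rfl⟩ := hu
      exact ⟨t, ht, rfl⟩
    | zero => rw [map_zero]; exact I.zero_mem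
    | add u w _ _ hu hw => rw [map_add]; exact I.add_mem hu hw
    | smul r u _ hu =>
      rw [b.map_smulₛₗ]
      exact I.smul_mem _ hu
  have hI : ∀ c : G.N₁, b c ∈ I := by
    intro c
    have hc : c ∈ genSub x y i.n i.q G := by rw [htop]; exact Submodule.mem_top
    obtain ⟨u, hu, v, hv, rfl⟩ := Submodule.mem_sup.mp hc
    rw [map_add, rig_eq_zero_of_mem hC b hv, add_zero]
    exact hspanI u hu
  obtain ⟨c, hc⟩ := rig_surjective b hb 1
  have h1I : (1 : A) ∈ I := hc ▸ hI c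
  obtain ⟨s₁, hs₁, hs₁1⟩ := h1I
  have hs₁1' : b s₁.2 = 1 := hs₁1
  -- the module of sections
  haveI := finite_ker_evq hC h1
  haveI := projective_ker_evq hC h1
  let ε : LinearMap.ker (evq x i.n i.q G) →ₗ[A] A :=
    rigLin b ∘ₗ LinearMap.snd A G.N₀ G.N₁ ∘ₗ (sec x i.n G).subtype ∘ₗ
      (LinearMap.ker (evq x i.n i.q G)).subtype
  have hε : ∀ t : LinearMap.ker (evq x i.n i.q G), ε t = b (t : sec x i.n G).1.2 := fun _ => rfl
  let σ₁ : LinearMap.ker (evq x i.n i.q G) := ⟨⟨s₁, hs₁.1⟩, mem_ker_evq.mpr hs₁⟩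
  have hσ₁ : ε σ₁ = 1 := hs₁1'
  have hsurj : Function.Surjective ε := fun a => ⟨a • σ₁, by rw [map_smul, hσ₁, smul_eq_mul,
    mul_one]⟩
  have hinj : Function.Injective ε :=
    injective_of_surjective_of_rankAtStalk_eq_one
      (fun p => rankAtStalk_ker_evq hC i hnum G hdeg h1 p) ε hsurj
  -- every section is a multiple of `s₁`
  have hspan : ∀ t ∈ secq x i.n i.q G, t = b t.2 • s₁ := by
    intro t ht
    let τ : LinearMap.ker (evq x i.n i.q G) := ⟨⟨t, ht.1⟩, mem_ker_evq.mpr ht⟩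
    have hτ : τ = ε τ • σ₁ := by
      apply hinj
      rw [map_smul, hσ₁, smul_eq_mul, mul_one]
    have := congrArg (fun z : LinearMap.ker (evq x i.n i.q G) => ((z : sec x i.n G) :
      G.N₀ × G.N₁)) hτ
    exact this
  refine ⟨s₁, hs₁, fun t ht => ⟨b t.2, hspan t ht⟩, ?_⟩
  intro c
  have hc : c ∈ genSub x y i.n i.q G := by rw [htop]; exact Submodule.mem_top
  obtain ⟨u, hu, v, hv, rfl⟩ := Submodule.mem_sup.mp hc
  have hle : Submodule.span (A ⊗[k] B₁) (Prod.snd '' (secq x i.n i.q G : Set (G.N₀ × G.N₁))) ≤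
      Submodule.span (A ⊗[k] B₁) {s₁.2} := by
    rw [Submodule.span_le]
    rintro _ ⟨t, ht, rfl⟩
    have h2 : t.2 = algebraMap A (A ⊗[k] B₁) (b t.2) • s₁.2 := by
      rw [algebraMap_smul]
      exact congrArg Prod.snd (hspan t ht)
    rw [h2]
    exact Submodule.smul_mem _ _ (Submodule.mem_span_singleton_self _)
  obtain ⟨r, hr⟩ := Submodule.mem_span_singleton.mp (hle hu)
  refine ⟨r, ?_⟩
  rw [← hr, add_sub_cancel_left]
  exact hv

/-- Under `P1` (with rigidification, degree zero and the numerical constraint): `P2` is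
equivalent to the sections of `G(nE₀ - Σq)` generating `N₁` modulo `y`. -/
theorem p2_iff_genSub_eq_top (hC : IsCurveChart k B₀ B₁ B₀₁ x y e)
    (i : ChartIndex k B₀) (hnum : i.Numeric B₀₁ y) (G : CurveGD k B₀ B₁ B₀₁ A)
    (hrig : G.Rigidifiable e) (hdeg : G.Deg0) (h1 : P1 x i.n i.q G) :
    P2 x y i.n i.q G ↔ genSub x y i.n i.q G = ⊤ :=
  ⟨fun h => by obtain ⟨s, hs⟩ := h.2; exact genSub_eq_top_of_isGen hs,
    fun h => ⟨h1, exists_isGen_of_genSub_eq_top hC i hnum G hrig hdeg h1 h⟩⟩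

end Free

section BaseChange

variable {A A' : Type u} [CommRing A] [Algebra k A] [CommRing A'] [Algebra k A'] [Algebra A A']
  [IsScalarTower k A A']
  {ψ : A →ₐ[k] A'} {G : CurveGD k B₀ B₁ B₀₁ A} {G' : CurveGD k B₀ B₁ B₀₁ A'}
  {bc : GlueDatum.BaseChangeMaps (tensorMapLeft k ψ B₀) (tensorMapLeft k ψ B₁)
      (tensorMapLeft k ψ B₀₁) G G'}

set_option maxHeartbeats 1600000 in
/-- Under `P1` for `G`, every section of `G'(nE₀ - Σq)` is an `A'`-linear combination of
base-changed sections of `G(nE₀ - Σq)`. -/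
theorem mem_span_bc_of_mem_secq [IsAlgClosed k] (E : H791.BCEquivs ψ bc)
    (hC : IsCurveChart k B₀ B₁ B₀₁ x y e) (n : ℕ) {m : ℕ} (q : Fin m → (B₀ →ₐ[k] k))
    (h1 : P1 x n q G) {t' : G'.N₀ × G'.N₁} (ht' : t' ∈ secq x n q G') :
    t' ∈ Submodule.span A' ((fun s : G.N₀ × G.N₁ => ((bc.b₀ s.1, bc.b₁ s.2) : G'.N₀ × G'.N₁)) ''
      (secq x n q G : Set (G.N₀ × G.N₁))) := by
  haveI := H446.vanq_quotient_projective hC q G
  obtain ⟨σ, π, hσ, hπ⟩ := exists_splitting (evq x n q G) (evq_surjective h1)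
  obtain ⟨τ, hτ⟩ := E.mem_range_of_mem_sec hC n h1.1 ht'.1
  -- the evaluation of `τ` vanishes
  have hz : (evq x n q G).baseChange A' τ = 0 := by
    have hcomp : evq x n q G = ((vanq q G).mkQ.restrictScalars A ∘ₗ LinearMap.fst A G.N₀ G.N₁) ∘ₗ
        (sec x n G).subtype := rfl
    rw [hcomp, LinearMap.baseChange_comp, LinearMap.comp_apply, hτ, LinearMap.baseChange_comp,
      LinearMap.comp_apply]
    have hw : (LinearMap.fst A G.N₀ G.N₁).baseChange A' (E.prod.symm t') = E.E₀.symm t'.1 := by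
      apply E.E₀.injective
      rw [← E.prod_fst, LinearEquiv.apply_symm_apply, LinearEquiv.apply_symm_apply]
    rw [hw]
    have hv' : t'.1 ∈ vanq q G' := (mem_secq.mp ht').2
    obtain ⟨w₀, hw₀⟩ := E.mem_range_of_mem_vanq q hv'
    rw [← hw₀, ← LinearMap.comp_apply, ← LinearMap.baseChange_comp]
    have h0 : (vanq q G).mkQ.restrictScalars A ∘ₗ ((vanq q G).restrictScalars A).subtype = 0 := by
      apply LinearMap.ext
      intro v
      exact (Submodule.Quotient.mk_eq_zero _).mpr v.2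
    rw [h0, LinearMap.baseChange_zero]
    rfl
  -- hence `τ` comes from the kernel
  have hid : (LinearMap.id : sec x n G →ₗ[A] sec x n G) =
      (LinearMap.ker (evq x n q G)).subtype ∘ₗ π + σ ∘ₗ evq x n q G := by
    apply LinearMap.ext
    intro u
    rw [LinearMap.add_apply, LinearMap.comp_apply, LinearMap.comp_apply, Submodule.subtype_apply,
      hπ, LinearMap.id_apply, sub_add_cancel]
  have hτ2 : τ = ((LinearMap.ker (evq x n q G)).subtype ∘ₗ π).baseChange A' τ := by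
    have h := congrArg (fun f : sec x n G →ₗ[A] sec x n G => f.baseChange A' τ) hid
    simp only [LinearMap.baseChange_id, LinearMap.id_apply, LinearMap.baseChange_add,
      LinearMap.add_apply] at h
    rw [LinearMap.baseChange_comp (evq x n q G) σ, LinearMap.comp_apply, hz, map_zero,
      add_zero] at h
    exact h
  set T : Submodule A' (G'.N₀ × G'.N₁) :=
    Submodule.span A' ((fun s : G.N₀ × G.N₁ => ((bc.b₀ s.1, bc.b₁ s.2) : G'.N₀ × G'.N₁)) ''
      (secq x n q G : Set (G.N₀ × G.N₁))) with hT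
  have hgen : ∀ (s : A') (u : LinearMap.ker (evq x n q G)),
      E.prod (s ⊗ₜ[A] ((u : sec x n G) : G.N₀ × G.N₁)) ∈ T := by
    intro s u
    have hsm : E.prod (s ⊗ₜ[A] ((u : sec x n G) : G.N₀ × G.N₁)) =
        s • ((bc.b₀ ((u : sec x n G) : G.N₀ × G.N₁).1,
          bc.b₁ ((u : sec x n G) : G.N₀ × G.N₁).2) : G'.N₀ × G'.N₁) := E.prod_tmul s _
    rw [hsm]
    exact T.smul_mem s (Submodule.subset_span ⟨_, mem_ker_evq.mp u.2, rfl⟩)
  have hfinal : ∀ ρ : A' ⊗[A] LinearMap.ker (evq x n q G),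
      E.prod (((sec x n G).subtype ∘ₗ (LinearMap.ker (evq x n q G)).subtype).baseChange A' ρ) ∈
        T := by
    intro ρ
    induction ρ using TensorProduct.induction_on with
    | zero =>
      rw [map_zero, map_zero]
      exact T.zero_mem
    | add a c ha hc =>
      rw [map_add, map_add]
      exact T.add_mem ha hc
    | tmul s u =>
      rw [LinearMap.baseChange_tmul]
      exact hgen s u
  have ht'eq : t' = E.prod (((sec x n G).subtype ∘ₗ
      (LinearMap.ker (evq x n q G)).subtype).baseChange A' (π.baseChange A' τ)) := by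
    rw [LinearMap.baseChange_comp, LinearMap.comp_apply, ← LinearMap.comp_apply
      (((LinearMap.ker (evq x n q G)).subtype).baseChange A'), ← LinearMap.baseChange_comp,
      ← hτ2, hτ, LinearEquiv.apply_symm_apply]
  rw [ht'eq]
  exact hfinal _


/-- The `A'`-span of the image of an `A ⊗ B₁`-submodule of `N₁` is stable under `A' ⊗ B₁`. -/
theorem smul_mem_span_bc (W : Submodule (A ⊗[k] B₁) G.N₁) (r' : A' ⊗[k] B₁) {u : G'.N₁}
    (hu : u ∈ Submodule.span A' (bc.b₁ '' (W : Set G.N₁))) :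
    r' • u ∈ Submodule.span A' (bc.b₁ '' (W : Set G.N₁)) := by
  set T : Submodule A' G'.N₁ := Submodule.span A' (bc.b₁ '' (W : Set G.N₁)) with hT
  have hgen : ∀ (a' : A') (c : B₁) (w : G.N₁), w ∈ W → (a' ⊗ₜ[k] c : A' ⊗[k] B₁) • bc.b₁ w ∈ T := by
    intro a' c w hw
    have h1 : (a' ⊗ₜ[k] c : A' ⊗[k] B₁) = a' • tensorMapLeft k ψ B₁ ((1 : A) ⊗ₜ[k] c) := by
      rw [H791.tensorMapLeft_tmul, map_one, TensorProduct.smul_tmul', smul_eq_mul, mul_one]
    rw [h1, smul_assoc, ← bc.b₁.map_smulₛₗ]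
    exact T.smul_mem a' (Submodule.subset_span ⟨_, W.smul_mem _ hw, rfl⟩)
  have hmem : ∀ (r' : A' ⊗[k] B₁) (w : G.N₁), w ∈ W → r' • bc.b₁ w ∈ T := by
    intro r' w hw
    induction r' using TensorProduct.induction_on with
    | zero => rw [zero_smul]; exact T.zero_mem
    | tmul a' c => exact hgen a' c w hw
    | add r₁ r₂ h₁ h₂ => rw [add_smul]; exact T.add_mem h₁ h₂
  induction hu using Submodule.span_induction with
  | mem u hu =>
    obtain ⟨w, hw, rfl⟩ := hu
    exact hmem r' w hw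
  | zero => rw [smul_zero]; exact T.zero_mem
  | add u v _ _ hu hv => rw [smul_add]; exact T.add_mem hu hv
  | smul a' u _ hu => rw [smul_comm]; exact T.smul_mem a' hu

/-- Base change maps send `genSub` into `genSub`. -/
theorem bc_mem_genSub (n : ℕ) {m : ℕ} (q : Fin m → (B₀ →ₐ[k] k)) {c : G.N₁}
    (hc : c ∈ genSub x y n q G) : bc.b₁ c ∈ genSub x y n q G' := by
  obtain ⟨u, hu, v, hv, rfl⟩ := Submodule.mem_sup.mp hc
  clear hc
  rw [map_add]
  refine Submodule.add_mem _ (Submodule.mem_sup_left ?_) (Submodule.mem_sup_right ?_)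
  · induction hu using Submodule.span_induction with
    | mem u hu =>
      obtain ⟨t, ht, rfl⟩ := hu
      exact Submodule.subset_span ⟨(bc.b₀ t.1, bc.b₁ t.2), H671.mem_secq_bcPair bc ht, rfl⟩
    | zero => rw [map_zero]; exact Submodule.zero_mem _
    | add u w _ _ hu hw => rw [map_add]; exact Submodule.add_mem _ hu hw
    | smul r u _ hu => rw [bc.b₁.map_smulₛₗ]; exact Submodule.smul_mem _ _ hu
  · have h := H671.map_mem_map_smul_top bc.b₁ _ hv
    rwa [Ideal.map_span, Set.image_singleton, H671.tensorMapLeft_yElt] at h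

/-- Under `P1` for `G`: the sections of `G'(nE₀ - Σq)` generate `N₁'` modulo `y` iff the image
of `genSub G` spans `N₁'` over `A'`. -/
theorem genSub_bc_eq_top_iff [IsAlgClosed k] (E : H791.BCEquivs ψ bc)
    (hC : IsCurveChart k B₀ B₁ B₀₁ x y e) (n : ℕ) {m : ℕ} (q : Fin m → (B₀ →ₐ[k] k))
    (h1 : P1 x n q G) :
    genSub x y n q G' = ⊤ ↔
      Submodule.span A' (bc.b₁ '' (genSub x y n q G : Set G.N₁)) = ⊤ := by
  set T : Submodule A' G'.N₁ := Submodule.span A' (bc.b₁ '' (genSub x y n q G : Set G.N₁))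
    with hT
  constructor
  · intro htop
    -- `T` contains `y N₁'`
    have hy : ∀ n' : G'.N₁, yElt k A' y • n' ∈ T := by
      intro n'
      refine H671.sbc_induction _ bc.b₁ bc.isBaseChange₁ (fun n' => yElt k A' y • n' ∈ T)
        ?_ ?_ ?_ ?_ n'
      · rw [smul_zero]; exact T.zero_mem
      · intro c
        rw [← H671.tensorMapLeft_yElt ψ y, ← bc.b₁.map_smulₛₗ]
        refine Submodule.subset_span ⟨_, Submodule.mem_sup_right ?_, rfl⟩
        exact Submodule.smul_mem_smul (Ideal.mem_span_singleton_self _) Submodule.mem_top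
      · intro r' n' hn'
        rw [smul_comm]
        exact smul_mem_span_bc _ r' hn'
      · intro n₁ n₂ h₁ h₂
        rw [smul_add]
        exact T.add_mem h₁ h₂
    have hY : ∀ v ∈ (Ideal.span {yElt k A' y} • ⊤ : Submodule (A' ⊗[k] B₁) G'.N₁), v ∈ T := by
      intro v hv
      refine Submodule.smul_induction_on hv (fun r hr n' _ => ?_)
        (fun a c ha hc => T.add_mem ha hc)
      obtain ⟨t, rfl⟩ := Ideal.mem_span_singleton'.1 hr
      rw [mul_smul]
      exact smul_mem_span_bc _ t (hy n')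
    -- `T` contains the second components of the sections
    have hS : ∀ t' ∈ secq x n q G', t'.2 ∈ T := by
      intro t' ht'
      have h := mem_span_bc_of_mem_secq E hC n q h1 ht'
      have h2 := Submodule.mem_map_of_mem (f := LinearMap.snd A' G'.N₀ G'.N₁) h
      rw [Submodule.map_span] at h2
      refine Submodule.span_mono ?_ h2
      rintro _ ⟨_, ⟨s, hs, rfl⟩, rfl⟩
      exact ⟨s.2, Submodule.mem_sup_left (Submodule.subset_span ⟨s, hs, rfl⟩), rfl⟩
    have hspan : ∀ u ∈ Submodule.span (A' ⊗[k] B₁)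
        (Prod.snd '' (secq x n q G' : Set (G'.N₀ × G'.N₁))), u ∈ T := by
      intro u hu
      induction hu using Submodule.span_induction with
      | mem u hu =>
        obtain ⟨t', ht', rfl⟩ := hu
        exact hS t' ht'
      | zero => exact T.zero_mem
      | add u v _ _ hu hv => exact T.add_mem hu hv
      | smul r u _ hu => exact smul_mem_span_bc _ r hu
    rw [Submodule.eq_top_iff']
    intro c'
    have hc' : c' ∈ genSub x y n q G' := by rw [htop]; exact Submodule.mem_top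
    obtain ⟨u, hu, v, hv, rfl⟩ := Submodule.mem_sup.mp hc'
    exact T.add_mem (hspan u hu) (hY v hv)
  · intro htop
    rw [Submodule.eq_top_iff']
    intro c'
    have hc' : c' ∈ T := by rw [htop]; exact Submodule.mem_top
    induction hc' using Submodule.span_induction with
    | mem c' hc' =>
      obtain ⟨c, hc, rfl⟩ := hc'
      exact bc_mem_genSub n q hc
    | zero => exact Submodule.zero_mem _
    | add u v _ _ hu hv => exact Submodule.add_mem _ hu hv
    | smul a' u _ hu =>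
      rw [← algebraMap_smul (A' ⊗[k] B₁) a' u]
      exact Submodule.smul_mem _ _ hu

end BaseChange

section Finite

variable {A : Type u} [CommRing A] [Algebra k A]

/-- For a curve chart, `A ⊗ B₁` is finite over `A[X]` via `X ↦ 1 ⊗ y`. -/
theorem finite_aeval_tmul₁ (hC : IsCurveChart k B₀ B₁ B₀₁ x y e) :
    (Polynomial.aeval ((1 : A) ⊗ₜ[k] y : A ⊗[k] B₁) : Polynomial A →ₐ[A] A ⊗[k] B₁).Finite := by
  haveI := hC.isDomain₁
  obtain ⟨n, φ, hφ⟩ := H250.exists_equivariant_equiv (H250.aeval_y_injective hC) hC.finite₁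
  obtain ⟨Φ, hΦ⟩ := H250.exists_equivariant_equiv_tensor φ hφ A
  exact H791.finite_aeval_of_equivariant _ Φ hΦ

/-- `N₁ ⧸ genSub` is a finite `A`-module. -/
theorem finite_quotient_genSub (hC : IsCurveChart k B₀ B₁ B₀₁ x y e) (n : ℕ) {m : ℕ}
    (q : Fin m → (B₀ →ₐ[k] k)) (G : CurveGD k B₀ B₁ B₀₁ A) :
    Module.Finite A (G.N₁ ⧸ (genSub x y n q G).restrictScalars A) := by
  haveI := G.invertible₁
  set Y : Submodule (A ⊗[k] B₁) G.N₁ := Ideal.span {yElt k A y} • ⊤ with hYdef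
  have hY : Module.Finite A (G.N₁ ⧸ Y) := by
    refine H791.finite_of_monic_aeval_smul_eq_zero ((1 : A) ⊗ₜ[k] y : A ⊗[k] B₁)
      (finite_aeval_tmul₁ hC) Polynomial.X Polynomial.monic_X (fun z => ?_)
    obtain ⟨c, rfl⟩ := Submodule.Quotient.mk_surjective _ z
    rw [Polynomial.aeval_X, ← Submodule.Quotient.mk_smul, Submodule.Quotient.mk_eq_zero]
    exact Submodule.smul_mem_smul (Ideal.mem_span_singleton_self _) Submodule.mem_top
  haveI : Module.Finite A (G.N₁ ⧸ Y.restrictScalars A) :=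
    Module.Finite.equiv (Submodule.Quotient.restrictScalarsEquiv A Y).symm
  have hle : Y.restrictScalars A ≤
      LinearMap.ker ((genSub x y n q G).restrictScalars A).mkQ := by
    rw [Submodule.ker_mkQ]
    intro v hv
    exact Submodule.mem_sup_right hv
  refine Module.Finite.of_surjective
    ((Y.restrictScalars A).liftQ ((genSub x y n q G).restrictScalars A).mkQ hle) ?_
  intro z
  obtain ⟨a, rfl⟩ := Submodule.Quotient.mk_surjective _ z
  exact ⟨Submodule.Quotient.mk a, rfl⟩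

end Finite

section Main

variable [IsAlgClosed k] {A : Type u} [CommRing A] [Algebra k A]

/-- `P1` is stable under base change. -/
theorem p1_of_isBC (hC : IsCurveChart k B₀ B₁ B₀₁ x y e) (n : ℕ) {m : ℕ}
    (q : Fin m → (B₀ →ₐ[k] k)) {A' : Type u} [CommRing A'] [Algebra k A'] [Algebra A A']
    [IsScalarTower k A A'] (ψ : A →ₐ[k] A') (hψ : ∀ a, ψ a = algebraMap A A' a)
    {G : CurveGD k B₀ B₁ B₀₁ A} {G' : CurveGD k B₀ B₁ B₀₁ A'} (h : CurveGD.IsBC ψ G G')
    (h1 : P1 x n q G) : P1 x n q G' := by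
  rw [H791.p1_iff_annihilator_map hC n q ψ hψ h h1.1]
  have htop : H791.evRange x n q G = ⊤ := (H791.p1_iff.mp h1).2
  have hsub : Subsingleton (G.N₀ ⧸ H791.evRange x n q G) :=
    Submodule.Quotient.subsingleton_iff.mpr htop
  rw [Module.annihilator_eq_top_iff.mpr hsub, Ideal.map_top]

/-- **STAGE 2** with an explicit ideal: given `P1`, the locus where `H⁰(G(nE₀ - Σq))` is free
of rank one on a section generating `N₁` modulo `y` is the complement of the support of
`N₁ ⧸ genSub`. -/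
theorem p2_iff_annihilator_map (hC : IsCurveChart k B₀ B₁ B₀₁ x y e)
    (i : ChartIndex k B₀) (hnum : i.Numeric B₀₁ y) (G : CurveGD k B₀ B₁ B₀₁ A)
    (hrig : G.Rigidifiable e) (hdeg : G.Deg0) (h1 : P1 x i.n i.q G)
    {A' : Type u} [CommRing A'] [Algebra k A'] [Algebra A A'] [IsScalarTower k A A']
    (ψ : A →ₐ[k] A') (hψ : ∀ a, ψ a = algebraMap A A' a)
    {G' : CurveGD k B₀ B₁ B₀₁ A'} (h : CurveGD.IsBC ψ G G') :
    P2 x y i.n i.q G' ↔
      (Module.annihilator A (G.N₁ ⧸ (genSub x y i.n i.q G).restrictScalars A)).map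
        (algebraMap A A') = ⊤ := by
  have h1' : P1 x i.n i.q G' := p1_of_isBC hC i.n i.q ψ hψ h h1
  have hrig' : G'.Rigidifiable e := H205.gdc_rig h hrig
  have hdeg' : G'.Deg0 := H205.gdc_deg0 h hdeg
  obtain ⟨bc⟩ := h
  obtain ⟨E⟩ := H791.exists_bcEquivs ψ hψ bc
  haveI := finite_quotient_genSub hC i.n i.q G
  rw [p2_iff_genSub_eq_top hC i hnum G' hrig' hdeg' h1', genSub_bc_eq_top_iff E hC i.n i.q h1,
    ← H791.subsingleton_tensorProduct_iff]
  exact span_image_eq_top_iff_subsingleton E.E₁ bc.b₁ E.E₁_tmul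
    ((genSub x y i.n i.q G).restrictScalars A)

/-- **STAGE 2** (exact skeleton statement): given `P1`, the locus where `H⁰(G(nE₀ - Σq))`
(of rank one) generates `N₁ / y N₁`; there it is free on a generator. -/
theorem stage2_locus (hC : IsCurveChart k B₀ B₁ B₀₁ x y e)
    (i : ChartIndex k B₀) (hnum : i.Numeric B₀₁ y) (G : CurveGD k B₀ B₁ B₀₁ A)
    (hrig : G.Rigidifiable e) (hdeg : G.Deg0) (h1 : P1 x i.n i.q G) :
    ∃ J : Ideal A, ∀ (A' : Type u) [CommRing A'] [Algebra k A'] (ψ : A →ₐ[k] A')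
      (G' : CurveGD k B₀ B₁ B₀₁ A'), CurveGD.IsBC ψ G G' →
        (P2 x y i.n i.q G' ↔ J.map ψ.toRingHom = ⊤) := by
  refine ⟨Module.annihilator A (G.N₁ ⧸ (genSub x y i.n i.q G).restrictScalars A), ?_⟩
  intro A' _ _ ψ G' h
  letI : Algebra A A' := ψ.toRingHom.toAlgebra
  haveI : IsScalarTower k A A' := IsScalarTower.of_algebraMap_eq' (by
    ext c
    exact (ψ.commutes c).symm)
  exact p2_iff_annihilator_map hC i hnum G hrig hdeg h1 ψ (fun _ => rfl) h

end Main

/-- **Leaf ST2** of block ALGCHARTS. -/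
theorem leaf_stage2 (k : Type u) [Field k] [IsAlgClosed k] (B₀ B₁ B₀₁ : Type u) [CommRing B₀]
    [CommRing B₁] [CommRing B₀₁] [Algebra k B₀] [Algebra k B₁] [Algebra k B₀₁] [Algebra B₀ B₀₁]
    [Algebra B₁ B₀₁] [IsScalarTower k B₀ B₀₁] [IsScalarTower k B₁ B₀₁] :
    H11.Leaf.Stage2 k B₀ B₁ B₀₁ :=
  fun _ _ _ hC i hnum _ _ _ G hrig hdeg h1 => stage2_locus hC i hnum G hrig hdeg h1

end Fermat.Agent.S25.H790
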