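import Mathlib

/-!
# Row S25, block ALGVAL — algebra core (helper790), Mathlib only

`V` a valuation ring with fraction field `K`; `R` a `V`-algebra with a `V`-basis `bV`,
`R'` a `K`-algebra with a `K`-basis `bK`, `ρ : R →+* R'` mapping coordinates to coordinates
(think `R = V ⊗[k] B`, `R' = K ⊗[k] B`), `π : R →+* Rbar` the "special fibre"
(kernel = elements with all coordinates in the maximal ideal), `Rbar` a domain.

Main results:
* `exists_scale_unit`, `exists_scale_lift`: content of a finite family.
* `exists_scaled_map`: an `R'`-linear map between base changes of f.g. projective modules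
  can be scaled by `a ∈ Kˣ` to a *primitive* `R`-linear map.
* `exists_scaled_equiv`: (content + Gauss lemma) an isomorphism over `R'` between the base
  changes of two invertible `R`-modules is, up to a scalar `a ∈ Kˣ`, induced by an
  isomorphism over `R`.
* `exists_unit_of_span`: two spanning families which are `K`-proportional after base change
  are proportional by a unit of `V`.
-/

set_option autoImplicit false
set_option linter.unusedSectionVars false
set_option linter.style.haveILetI false
set_option linter.unusedVariables false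

namespace Fermat.Agent.S25.H790

open IsLocalRing

noncomputable section

section Content

variable {V K : Type*} [CommRing V] [IsDomain V] [ValuationRing V] [Field K] [Algebra V K]
  [IsFractionRing V K]

/-- A finite family of elements of `K = Frac V`, not all zero, can be scaled into `V` such
that one member becomes `1`. -/
theorem exists_scale_unit {J : Type*} (s : Finset J) (c : J → K) (h : ∃ j ∈ s, c j ≠ 0) :
    ∃ a : K, a ≠ 0 ∧ (∀ j ∈ s, ∃ v : V, algebraMap V K v = a * c j) ∧
      ∃ j ∈ s, a * c j = 1 := by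
  classical
  obtain ⟨j₁, hj₁, hc₁⟩ := h
  have hne : (s.filter fun j => c j ≠ 0).Nonempty := ⟨j₁, by simp [hj₁, hc₁]⟩
  obtain ⟨j₀, hj₀, hmax⟩ :=
    Finset.exists_max_image _ (fun j => ValuationRing.valuation V K (c j)) hne
  rw [Finset.mem_filter] at hj₀
  refine ⟨(c j₀)⁻¹, inv_ne_zero hj₀.2, fun j hj => ?_, j₀, hj₀.1, inv_mul_cancel₀ hj₀.2⟩
  by_cases hcj : c j = 0
  · exact ⟨0, by simp [hcj]⟩
  · rw [← ValuationRing.mem_integer_iff, Valuation.mem_integer_iff, map_mul, map_inv₀]
    have h1 := hmax j (by simp [hj, hcj])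
    have h0 : (0 : ValuationRing.ValueGroup V K) < ValuationRing.valuation V K (c j₀) :=
      zero_lt_iff.mpr (by simpa using hj₀.2)
    exact (inv_mul_le_one₀ h0).mpr h1

end Content

section Chart

variable {V K R R' : Type*} [CommRing V] [IsDomain V] [ValuationRing V] [Field K]
  [Algebra V K] [IsFractionRing V K] [CommRing R] [Algebra V R] [CommRing R'] [Algebra K R']
  (ρ : R →+* R') {I : Type*} (bV : Module.Basis I V R) (bK : Module.Basis I K R')
  (hρ : ∀ r i, bK.repr (ρ r) i = algebraMap V K (bV.repr r i))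

include hρ

theorem chart_injective : Function.Injective ρ := by
  rw [injective_iff_map_eq_zero]
  intro r hr
  apply bV.repr.injective
  ext i
  have h := hρ r i
  rw [hr] at h
  simp only [map_zero, Finsupp.coe_zero, Pi.zero_apply] at h ⊢
  exact IsFractionRing.injective V K (by rw [← h, map_zero])

theorem chart_map_algebraMap_mul (v : V) (r : R) :
    ρ (algebraMap V R v * r) = algebraMap K R' (algebraMap V K v) * ρ r := by
  apply bK.repr.injective
  ext i
  rw [hρ, ← Algebra.smul_def, ← Algebra.smul_def, map_smul, map_smul, Finsupp.smul_apply,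
    Finsupp.smul_apply, hρ, smul_eq_mul, smul_eq_mul, map_mul]

theorem chart_map_algebraMap (v : V) :
    ρ (algebraMap V R v) = algebraMap K R' (algebraMap V K v) := by
  have := chart_map_algebraMap_mul ρ bV bK hρ v 1
  simpa using this

/-- Content of a finite family of elements of `R'`: scale it into `R`, primitively. -/
theorem exists_scale_lift {J : Type*} [Finite J] (z : J → R') (hz : ∃ j, z j ≠ 0) :
    ∃ a : K, a ≠ 0 ∧ ∃ w : J → R, (∀ j, ρ (w j) = algebraMap K R' a * z j) ∧
      ∃ j i, bV.repr (w j) i = 1 := by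
  classical
  haveI := Fintype.ofFinite J
  let S : Finset I := Finset.univ.biUnion fun j => (bK.repr (z j)).support
  have hS : ∀ j i, bK.repr (z j) i ≠ 0 → i ∈ S := fun j i h =>
    Finset.mem_biUnion.mpr ⟨j, Finset.mem_univ _, Finsupp.mem_support_iff.mpr h⟩
  obtain ⟨j₁, hj₁⟩ := hz
  have hex : ∃ p ∈ (Finset.univ ×ˢ S : Finset (J × I)), bK.repr (z p.1) p.2 ≠ 0 := by
    have : bK.repr (z j₁) ≠ 0 := fun h => hj₁ (bK.repr.injective (by rw [h, map_zero]))
    obtain ⟨i, hi⟩ := Finsupp.ne_iff.mp this
    exact ⟨(j₁, i), Finset.mem_product.mpr ⟨Finset.mem_univ _, hS _ _ (by simpa using hi)⟩,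
      by simpa using hi⟩
  obtain ⟨a, ha, hint, p₀, hp₀, h1⟩ :=
    exists_scale_unit (V := V) (Finset.univ ×ˢ S : Finset (J × I))
      (fun p => bK.repr (z p.1) p.2) hex
  have hall : ∀ j i, ∃ v : V, algebraMap V K v = a * bK.repr (z j) i := by
    intro j i
    by_cases hi : bK.repr (z j) i = 0
    · exact ⟨0, by simp [hi]⟩
    · exact hint (j, i) (Finset.mem_product.mpr ⟨Finset.mem_univ _, hS _ _ hi⟩)
  choose g hg using hall
  have hg0 : ∀ j i, g j i ≠ 0 → i ∈ S := by
    intro j i h
    apply hS j i
    intro h0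
    apply h
    apply IsFractionRing.injective V K
    rw [hg, h0, mul_zero, map_zero]
  let w : J → R := fun j => bV.repr.symm (Finsupp.onFinset S (g j) (hg0 j))
  have hw : ∀ j i, bV.repr (w j) i = g j i := by
    intro j i
    simp only [w, LinearEquiv.apply_symm_apply, Finsupp.onFinset_apply]
  refine ⟨a, ha, w, fun j => ?_, p₀.1, p₀.2, ?_⟩
  · apply bK.repr.injective
    ext i
    rw [hρ, hw, hg, ← Algebra.smul_def, map_smul, Finsupp.smul_apply, smul_eq_mul]
  · rw [hw]
    apply IsFractionRing.injective V K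
    rw [hg, map_one]
    exact h1

end Chart

section Modules

variable {V K R R' : Type*} [CommRing V] [IsDomain V] [ValuationRing V] [Field K]
  [Algebra V K] [IsFractionRing V K] [CommRing R] [Algebra V R] [CommRing R'] [Algebra K R']
  (ρ : R →+* R') {I : Type*} (bV : Module.Basis I V R) (bK : Module.Basis I K R')
  (hρ : ∀ r i, bK.repr (ρ r) i = algebraMap V K (bV.repr r i))
  {N N' NK NK' : Type*} [AddCommGroup N] [Module R N] [AddCommGroup N'] [Module R N']
  [AddCommGroup NK] [Module R' NK] [AddCommGroup NK'] [Module R' NK']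
  (b : N →ₛₗ[ρ] NK) (b' : N' →ₛₗ[ρ] NK')

/-- Coordinatewise application of `ρ`, as a semilinear map. -/
def mapPi (n : ℕ) : (Fin n → R) →ₛₗ[ρ] (Fin n → R') where
  toFun v j := ρ (v j)
  map_add' u v := by ext j; simp
  map_smul' r v := by ext j; simp

@[simp] theorem mapPi_apply (n : ℕ) (v : Fin n → R) (j : Fin n) : mapPi ρ n v j = ρ (v j) := rfl

/-- The lifting property of a (semilinear) base change map, for finite free targets. -/
def HasLift : Prop :=
  ∀ (m : ℕ) (g : N →ₛₗ[ρ] (Fin m → R')), ∃ g' : NK →ₗ[R'] (Fin m → R'), ∀ x, g' (b x) = g x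

variable {ρ b b'}

include hρ in
theorem injective_of_hasLift [Module.Finite R N] [Module.Projective R N] (hl : HasLift ρ b) :
    Function.Injective b := by
  obtain ⟨n, p, i, -, hi, -⟩ := Module.Finite.exists_comp_eq_id_of_projective R N
  obtain ⟨iK, hiK⟩ := hl n ((mapPi ρ n).comp i)
  rw [injective_iff_map_eq_zero]
  intro x hx
  apply hi
  rw [map_zero]
  funext j
  apply chart_injective ρ bV bK hρ
  have := congrFun (hiK x) j
  rw [hx, map_zero] at this
  simpa using this.symm

include hρ in
/-- An `R'`-linear map between the base changes of two f.g. projective `R`-modules can be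
scaled by some `a ∈ Kˣ` to a primitive `R`-linear map. -/
theorem exists_scaled_map [Module.Finite R N] [Module.Projective R N] [Module.Finite R N']
    [Module.Projective R N'] (hb' : Submodule.span R' (Set.range b') = ⊤)
    (hl' : HasLift ρ b') (f : NK →ₗ[R'] NK') (hf : ∃ x, f (b x) ≠ 0) :
    ∃ a : K, a ≠ 0 ∧ ∃ f' : N →ₗ[R] N', (∀ x, b' (f' x) = algebraMap K R' a • f (b x)) ∧
      ∃ (x : N) (l : N' →ₗ[R] R) (i : I), bV.repr (l (f' x)) i = 1 := by
  classical
  obtain ⟨n, p, i, hp, hi, hpi⟩ := Module.Finite.exists_comp_eq_id_of_projective R N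
  obtain ⟨n', p', i', hp', hi', hpi'⟩ := Module.Finite.exists_comp_eq_id_of_projective R N'
  have hpi_apply : ∀ x, p (i x) = x := fun x => LinearMap.congr_fun hpi x
  have hpi'_apply : ∀ x, p' (i' x) = x := fun x => LinearMap.congr_fun hpi' x
  obtain ⟨iK', hiK'⟩ := hl' n' ((mapPi ρ n').comp i')
  have hρinj := chart_injective ρ bV bK hρ
  -- the projection over `R'`
  let P' : (Fin n' → R') →ₗ[R'] NK' :=
    Fintype.linearCombination R' (fun j => b' (p' (Pi.single j 1)))
  have hP'ρ : ∀ v : Fin n' → R, P' (mapPi ρ n' v) = b' (p' v) := by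
    intro v
    conv_rhs => rw [pi_eq_sum_univ' v]
    simp only [P', Fintype.linearCombination_apply, mapPi_apply, map_sum, map_smul,
      LinearMap.map_smulₛₗ]
  have hP'i : ∀ y, P' (iK' y) = y := by
    have : P' ∘ₗ iK' = LinearMap.id := by
      apply LinearMap.ext_on hb'
      rintro _ ⟨x, rfl⟩
      simp only [LinearMap.comp_apply, LinearMap.id_apply]
      rw [hiK']
      simp only [LinearMap.comp_apply]
      rw [hP'ρ, hpi'_apply]
    exact fun y => LinearMap.congr_fun this y
  -- the matrix entries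
  let z : Fin n × Fin n' → R' := fun q => iK' (f (b (p (Pi.single q.1 1)))) q.2
  have hfb : ∀ v : Fin n → R,
      iK' (f (b (p v))) = ∑ l, ρ (v l) • iK' (f (b (p (Pi.single l 1)))) := by
    intro v
    conv_lhs => rw [pi_eq_sum_univ' v]
    simp only [map_sum, map_smul, LinearMap.map_smulₛₗ]
  have hz : ∃ q, z q ≠ 0 := by
    by_contra hcon
    push Not at hcon
    obtain ⟨x, hx⟩ := hf
    apply hx
    obtain ⟨v, rfl⟩ := hp x
    rw [← hP'i (f (b (p v))), hfb]
    have : ∀ l, iK' (f (b (p (Pi.single l 1)))) = 0 := by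
      intro l
      funext j
      exact hcon (l, j)
    simp [this]
  obtain ⟨a, ha, w, hw, q₀, i₀, hw1⟩ := exists_scale_lift ρ bV bK hρ z hz
  let W : (Fin n → R) →ₗ[R] (Fin n' → R) :=
    Fintype.linearCombination R (fun l => fun j => w (l, j))
  have hWapply : ∀ v j, W v j = ∑ l, v l * w (l, j) := by
    intro v j
    simp only [W, Fintype.linearCombination_apply, Finset.sum_apply, Pi.smul_apply, smul_eq_mul]
  have hWρ : ∀ v, mapPi ρ n' (W v) = algebraMap K R' a • iK' (f (b (p v))) := by
    intro v
    funext j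
    rw [mapPi_apply, hWapply, hfb, map_sum, Pi.smul_apply, Finset.sum_apply, smul_eq_mul,
      Finset.mul_sum]
    refine Finset.sum_congr rfl fun l _ => ?_
    rw [map_mul, hw, Pi.smul_apply, smul_eq_mul]
    simp only [z]
    ring
  refine ⟨a, ha, p' ∘ₗ W ∘ₗ i, ?_, p (Pi.single q₀.1 1), (LinearMap.proj q₀.2) ∘ₗ i', i₀, ?_⟩
  · intro x
    simp only [LinearMap.comp_apply]
    rw [← hP'ρ, hWρ, map_smul, hP'i, hpi_apply]
  · have hclaim : ∀ v, i' (p' (W (i (p v)))) = W v := by
      intro v
      funext j
      apply hρinj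
      have h1 : mapPi ρ n' (i' (p' (W (i (p v))))) = iK' (b' (p' (W (i (p v))))) :=
        (hiK' _).symm
      have h2 : b' (p' (W (i (p v)))) = algebraMap K R' a • f (b (p v)) := by
        rw [← hP'ρ, hWρ, map_smul, hP'i, hpi_apply]
      have h3 := congrFun h1 j
      rw [mapPi_apply] at h3
      rw [h3, h2, map_smul, ← hWρ, mapPi_apply]
    simp only [LinearMap.comp_apply, LinearMap.proj_apply]
    rw [hclaim, hWapply]
    rw [Finset.sum_eq_single q₀.1]
    · simpa using hw1
    · intro l _ hl
      simp [Pi.single_eq_of_ne hl]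
    · intro h
      exact absurd (Finset.mem_univ _) h

section Special

variable {Rbar : Type*} [CommRing Rbar] (π : R →+* Rbar)
  (hπ : ∀ r, π r = 0 ↔ ∀ i, bV.repr r i ∈ maximalIdeal V)

include hπ in
theorem special_ne_zero_of_repr_eq_one {r : R} {i : I} (h : bV.repr r i = 1) : π r ≠ 0 := by
  intro h0
  have := (hπ r).mp h0 i
  rw [h] at this
  exact (Ideal.ne_top_iff_one _).mp (maximalIdeal.isMaximal V).ne_top this

include hπ in
theorem special_algebraMap_eq_zero {v : V} (hv : v ∈ maximalIdeal V) :
    π (algebraMap V R v) = 0 := by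
  rw [hπ]
  intro i
  rw [Algebra.algebraMap_eq_smul_one, map_smul, Finsupp.smul_apply, smul_eq_mul]
  exact Ideal.mul_mem_right _ _ hv

include hρ hπ in
/-- **Content + Gauss lemma.**  An isomorphism over `R'` between the base changes of two
invertible `R`-modules is, up to a scalar `a ∈ Kˣ`, induced by an isomorphism over `R`. -/
theorem exists_scaled_equiv [IsDomain Rbar] [Module.Invertible R N] [Module.Invertible R N']
    (hb : Submodule.span R' (Set.range b) = ⊤) (hb' : Submodule.span R' (Set.range b') = ⊤)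
    (hl : HasLift ρ b) (hl' : HasLift ρ b') (f : NK ≃ₗ[R'] NK') :
    ∃ a : K, a ≠ 0 ∧ ∃ e : N ≃ₗ[R] N', ∀ x, b' (e x) = algebraMap K R' a • f (b x) := by
  classical
  have hρinj := chart_injective ρ bV bK hρ
  have hbinj : Function.Injective b := injective_of_hasLift bV bK hρ hl
  have hb'inj : Function.Injective b' := injective_of_hasLift bV bK hρ hl'
  haveI : Nontrivial R := π.domain_nontrivial
  have hN : ∃ x : N, x ≠ 0 := by
    by_contra h
    push Not at h
    have : (1 : R) = 0 :=
      FaithfulSMul.eq_of_smul_eq_smul (α := N) (fun x => by rw [h x, smul_zero, smul_zero])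
    exact one_ne_zero this
  have hN' : ∃ x : N', x ≠ 0 := by
    by_contra h
    push Not at h
    have : (1 : R) = 0 :=
      FaithfulSMul.eq_of_smul_eq_smul (α := N') (fun x => by rw [h x, smul_zero, smul_zero])
    exact one_ne_zero this
  obtain ⟨x₁, hx₁⟩ := hN
  obtain ⟨y₁, hy₁⟩ := hN'
  have hf : ∃ x, f.toLinearMap (b x) ≠ 0 :=
    ⟨x₁, fun h => hx₁ (hbinj (by
      rw [map_zero]; exact f.injective (by rw [map_zero]; exact h)))⟩
  have hg : ∃ y, f.symm.toLinearMap (b' y) ≠ 0 :=
    ⟨y₁, fun h => hy₁ (hb'inj (by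
      rw [map_zero]; exact f.symm.injective (by rw [map_zero]; exact h)))⟩
  obtain ⟨a, ha, f', hf', x₀, l, i₀, hprim⟩ :=
    exists_scaled_map bV bK hρ hb' hl' f.toLinearMap hf
  obtain ⟨c, hc, g', hg', y₀, μ, i₁, hprim'⟩ :=
    exists_scaled_map bV bK hρ hb hl f.symm.toLinearMap hg
  have hgf : ∀ x, b (g' (f' x)) = algebraMap K R' (c * a) • b x := by
    intro x
    rw [hg', hf', LinearEquiv.coe_coe, LinearEquiv.coe_coe, map_smul,
      LinearEquiv.symm_apply_apply, smul_smul, ← map_mul]
  have hfg : ∀ y, b' (f' (g' y)) = algebraMap K R' (c * a) • b' y := by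
    intro y
    rw [hf', hg', LinearEquiv.coe_coe, LinearEquiv.coe_coe, map_smul,
      LinearEquiv.apply_symm_apply, smul_smul, ← map_mul, mul_comm]
  have hca : c * a ≠ 0 := mul_ne_zero hc ha
  have key : ∃ u : Vˣ, algebraMap V K ↑u = c * a := by
    rcases ValuationRing.isInteger_or_isInteger V (c * a) with ⟨v, hv⟩ | ⟨v, hv⟩
    · by_cases hu : IsUnit v
      · obtain ⟨u, rfl⟩ := hu
        exact ⟨u, hv⟩
      · exfalso
        have hvm : v ∈ maximalIdeal V := (mem_maximalIdeal v).mpr hu
        have h1 : ∀ x, g' (f' x) = algebraMap V R v • x := by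
          intro x
          apply hbinj
          rw [hgf, LinearMap.map_smulₛₗ, chart_map_algebraMap ρ bV bK hρ, hv]
        have h2 := Module.Invertible.tmul_comm (R := R) (m₁ := f' x₀) (m₂ := y₀)
        have h3 := congrArg (TensorProduct.lift ((LinearMap.lsmul R N').comp l)) h2
        simp only [TensorProduct.lift.tmul, LinearMap.comp_apply, LinearMap.lsmul_apply] at h3
        have h4 := congrArg (fun t => μ (g' t)) h3
        simp only [map_smul, smul_eq_mul, h1] at h4
        have h5 := congrArg π h4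
        simp only [map_mul, special_algebraMap_eq_zero bV π hπ hvm, zero_mul, mul_zero] at h5
        rcases mul_eq_zero.mp h5 with h | h
        · exact special_ne_zero_of_repr_eq_one bV π hπ hprim h
        · exact special_ne_zero_of_repr_eq_one bV π hπ hprim' h
    · by_cases hu : IsUnit v
      · obtain ⟨u, rfl⟩ := hu
        refine ⟨u⁻¹, ?_⟩
        have h1 : algebraMap V K ↑u * algebraMap V K ↑u⁻¹ = 1 := by
          rw [← map_mul, Units.mul_inv, map_one]
        rw [hv] at h1
        have h2 := congrArg (fun t => (c * a) * t) h1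
        simp only [mul_one] at h2
        rw [← mul_assoc, mul_inv_cancel₀ hca, one_mul] at h2
        exact h2
      · exfalso
        have hvm : v ∈ maximalIdeal V := (mem_maximalIdeal v).mpr hu
        have h1 : ∀ x, algebraMap V R v • g' (f' x) = x := by
          intro x
          apply hbinj
          rw [LinearMap.map_smulₛₗ, chart_map_algebraMap ρ bV bK hρ, hgf, smul_smul, ← map_mul,
            hv, inv_mul_cancel₀ hca, map_one, one_smul]
        have h2 : μ (g' y₀) = algebraMap V R v * μ (g' (f' (g' y₀))) := by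
          conv_lhs => rw [← h1 (g' y₀)]
          rw [map_smul, smul_eq_mul]
        have h3 := congrArg π h2
        rw [map_mul, special_algebraMap_eq_zero bV π hπ hvm, zero_mul] at h3
        exact special_ne_zero_of_repr_eq_one bV π hπ hprim' h3
  obtain ⟨u, hu⟩ := key
  have hgf' : ∀ x, g' (f' x) = algebraMap V R ↑u • x := by
    intro x
    apply hbinj
    rw [hgf, LinearMap.map_smulₛₗ, chart_map_algebraMap ρ bV bK hρ, hu]
  have hfg' : ∀ y, f' (g' y) = algebraMap V R ↑u • y := by
    intro y
    apply hb'inj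
    rw [hfg, LinearMap.map_smulₛₗ, chart_map_algebraMap ρ bV bK hρ, hu]
  have huu : algebraMap V R ↑u⁻¹ * algebraMap V R ↑u = 1 := by
    rw [← map_mul, Units.inv_mul, map_one]
  refine ⟨a, ha, LinearEquiv.ofLinearMap f' (algebraMap V R ↑u⁻¹ • g') ?_ ?_, hf'⟩
  · ext y
    simp only [LinearMap.comp_apply, LinearMap.smul_apply, LinearMap.id_apply, map_smul]
    rw [hfg', smul_smul, huu, one_smul]
  · ext x
    simp only [LinearMap.comp_apply, LinearMap.smul_apply, LinearMap.id_apply]
    rw [hgf', smul_smul, huu, one_smul]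

include hρ hπ in
/-- Two spanning families of an invertible `R`-module whose images after base change are
proportional by a scalar of `Kˣ` are proportional by a unit of `V`. -/
theorem exists_unit_of_span {M MK : Type*} [AddCommGroup M] [Module R M] [Module.Invertible R M]
    [AddCommGroup MK] [Module R' MK] (β : M →ₛₗ[ρ] MK) (hβ : Function.Injective β)
    {S : Type*} (X Y : S → M) (hX : Submodule.span R (Set.range X) = ⊤)
    (hY : Submodule.span R (Set.range Y) = ⊤) (a₀ a₁ : K) (ha₀ : a₀ ≠ 0) (ha₁ : a₁ ≠ 0)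
    (h : ∀ s, algebraMap K R' a₁ • β (X s) = algebraMap K R' a₀ • β (Y s)) :
    ∃ u : Vˣ, ∀ s, X s = algebraMap V R ↑u • Y s := by
  classical
  by_cases hI : IsEmpty I
  · haveI : Subsingleton R := ⟨fun x y => bV.repr.injective (Subsingleton.elim _ _)⟩
    haveI : Subsingleton M := Module.subsingleton R M
    exact ⟨1, fun s => Subsingleton.elim _ _⟩
  obtain ⟨i₀⟩ := not_isEmpty_iff.mp hI
  have hnak : ∀ v ∈ maximalIdeal V, (∀ x : M, ∃ y : M, x = algebraMap V R v • y) → False := by
    intro v hv hsurj
    have hle : (⊤ : Submodule R M) ≤ Ideal.span {algebraMap V R v} • ⊤ := by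
      intro x _
      obtain ⟨y, rfl⟩ := hsurj x
      exact Submodule.smul_mem_smul (Ideal.subset_span rfl) Submodule.mem_top
    obtain ⟨r, hr1, hr0⟩ := Submodule.exists_sub_one_mem_and_smul_eq_zero_of_fg_of_le_smul _ ⊤
      Module.Finite.fg_top hle
    have hr : r = 0 := FaithfulSMul.eq_of_smul_eq_smul (α := M)
      (fun x => by rw [hr0 x Submodule.mem_top, zero_smul])
    rw [hr, zero_sub, Ideal.mem_span_singleton'] at hr1
    obtain ⟨t, ht⟩ := hr1
    have h1 := congrArg π ht
    rw [map_mul, special_algebraMap_eq_zero bV π hπ hv, mul_zero, map_neg, map_one] at h1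
    have h2 : π (bV i₀) = 0 := by
      have h10 : (1 : Rbar) = 0 := by rw [← neg_eq_zero]; exact h1.symm
      rw [← mul_one (π (bV i₀)), h10, mul_zero]
    have h3 := (hπ _).mp h2 i₀
    rw [Module.Basis.repr_self, Finsupp.single_eq_same] at h3
    exact (Ideal.ne_top_iff_one _).mp (maximalIdeal.isMaximal V).ne_top h3
  have hspan : ∀ (Z Z' : S → M) (v : V), Submodule.span R (Set.range Z) = ⊤ →
      (∀ s, Z s = algebraMap V R v • Z' s) → ∀ x : M, ∃ y : M, x = algebraMap V R v • y := by
    intro Z Z' v hZ hZZ' x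
    have hx : x ∈ Submodule.span R (Set.range Z) := hZ ▸ Submodule.mem_top
    induction hx using Submodule.span_induction with
    | mem x hx => obtain ⟨s, rfl⟩ := hx; exact ⟨Z' s, hZZ' s⟩
    | zero => exact ⟨0, by simp⟩
    | add x y _ _ hx hy =>
      obtain ⟨x', rfl⟩ := hx
      obtain ⟨y', rfl⟩ := hy
      exact ⟨x' + y', by rw [smul_add]⟩
    | smul r x _ hx =>
      obtain ⟨x', rfl⟩ := hx
      exact ⟨r • x', by rw [smul_comm]⟩
  have hXY : ∀ s, β (X s) = algebraMap K R' (a₀ / a₁) • β (Y s) := by
    intro s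
    have h1 := congrArg (fun m => algebraMap K R' a₁⁻¹ • m) (h s)
    simp only [smul_smul, ← map_mul] at h1
    rw [inv_mul_cancel₀ ha₁, map_one, one_smul] at h1
    rw [h1, div_eq_inv_mul]
  rcases ValuationRing.isInteger_or_isInteger V (a₀ / a₁) with ⟨v, hv⟩ | ⟨v, hv⟩
  · have hXv : ∀ s, X s = algebraMap V R v • Y s := by
      intro s
      apply hβ
      rw [hXY, LinearMap.map_smulₛₗ, chart_map_algebraMap ρ bV bK hρ, hv]
    by_cases hu : IsUnit v
    · obtain ⟨u, rfl⟩ := hu
      exact ⟨u, hXv⟩
    · exact (hnak v ((mem_maximalIdeal v).mpr hu) (hspan X Y v hX hXv)).elim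
  · have hYv : ∀ s, Y s = algebraMap V R v • X s := by
      intro s
      apply hβ
      rw [LinearMap.map_smulₛₗ, chart_map_algebraMap ρ bV bK hρ, hv, hXY, smul_smul, ← map_mul,
        inv_mul_cancel₀ (div_ne_zero ha₀ ha₁), map_one, one_smul]
    by_cases hu : IsUnit v
    · obtain ⟨u, rfl⟩ := hu
      refine ⟨u⁻¹, fun s => ?_⟩
      rw [hYv s, smul_smul, ← map_mul, Units.inv_mul, map_one, one_smul]
    · exact (hnak v ((mem_maximalIdeal v).mpr hu) (hspan Y X v hY hYv)).elim

end Special

end Modules

end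

end Fermat.Agent.S25.H790
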