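import Fermat.Agent.S25.DefsAlg
import Fermat.Agent.S25.H790.ValCore
import Fermat.Agent.S25.H567.TensorDomain

/-!
# Row S25, block ALGVAL — `Stmt.AlgVal` (helper790), degree-free route

Over a valuation ring `V ⊇ k` with fraction field `K`, two gluing data `G`, `G'` on the curve
chart which become isomorphic over `K` are isomorphic.  (The hypotheses `Deg0` are not needed.)

Route: on each chart `R_i = V ⊗[k] B_i` the isomorphism over `K ⊗[k] B_i` can be scaled by
`a_i ∈ Kˣ` to an isomorphism `N_i ≃ N_i'` (`ValCore.exists_scaled_equiv`: content + Gauss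
lemma, uses that the special fibre `κ ⊗[k] B_i` is a domain); on the overlap the two scalars
differ by a unit of `V` (`ValCore.exists_unit_of_span`).

* `algVal_of_isDomain`: `Stmt.AlgVal k B₀ B₁ B₀₁` if `κ ⊗[k] B₀`, `κ ⊗[k] B₁` are domains for
  every field `κ ⊇ k`.
* `algVal`: `Stmt.AlgVal k B₀ B₁ B₀₁` for algebraically closed `k`.
-/

set_option autoImplicit false
set_option linter.unusedSectionVars false
set_option linter.style.haveILetI false
set_option linter.unusedVariables false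
universe u
open scoped TensorProduct
open IsLocalRing

namespace Fermat.Agent.S25.H790

noncomputable section

section TensorChart

variable {k : Type u} [Field k] {V W : Type u} [CommRing V] [Algebra k V] [CommRing W]
  [Algebra k W] (φ : V →ₐ[k] W) {B : Type u} [CommRing B] [Algebra k B] {I : Type*}
  (bB : Module.Basis I k B)

/-- `tensorMapLeft` in coordinates. -/
theorem tensorMapLeft_repr (r : V ⊗[k] B) (i : I) :
    (Algebra.TensorProduct.basis W bB).repr (tensorMapLeft k φ B r) i =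
      φ ((Algebra.TensorProduct.basis V bB).repr r i) := by
  induction r using TensorProduct.induction_on with
  | zero => simp
  | tmul v β =>
    have h1 : tensorMapLeft k φ B (v ⊗ₜ[k] β) = φ v ⊗ₜ[k] β := by
      simp [tensorMapLeft]
    rw [h1, Algebra.TensorProduct.basis_repr_tmul, Algebra.TensorProduct.basis_repr_tmul]
    simp only [Finsupp.smul_apply, Finsupp.mapRange_apply, smul_eq_mul, map_mul,
      AlgHom.commutes]
  | add r s hr hs =>
    rw [map_add, map_add, map_add, Finsupp.add_apply, Finsupp.add_apply, hr, hs, map_add]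

end TensorChart

section Special

variable {k : Type u} [Field k] {V : Type u} [CommRing V] [IsLocalRing V] [Algebra k V]

/-- The residue map as a `k`-algebra homomorphism. -/
def residueAlgHom (k : Type u) [Field k] (V : Type u) [CommRing V] [IsLocalRing V]
    [Algebra k V] : V →ₐ[k] ResidueField V :=
  { residue V with commutes' := fun _ => rfl }

@[simp] theorem residueAlgHom_apply (v : V) : residueAlgHom k V v = residue V v := rfl

theorem special_eq_zero_iff {B : Type u} [CommRing B] [Algebra k B] {I : Type*}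
    (bB : Module.Basis I k B) (r : V ⊗[k] B) :
    tensorMapLeft k (residueAlgHom k V) B r = 0 ↔
      ∀ i, (Algebra.TensorProduct.basis V bB).repr r i ∈ maximalIdeal V := by
  constructor
  · intro h i
    have := tensorMapLeft_repr (residueAlgHom k V) bB r i
    rw [h, map_zero, Finsupp.zero_apply] at this
    exact (residue_eq_zero_iff _).mp this.symm
  · intro h
    apply (Algebra.TensorProduct.basis (ResidueField V) bB).repr.injective
    ext i
    rw [tensorMapLeft_repr, map_zero, Finsupp.zero_apply]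
    exact (residue_eq_zero_iff _).mpr (h i)

end Special

section SemilinearBC

variable {R R' : Type u} [CommRing R] [CommRing R'] {ρ : R →+* R'}
  {N N' : Type u} [AddCommGroup N] [Module R N] [AddCommGroup N'] [Module R' N']
  {b : N →ₛₗ[ρ] N'}

theorem span_range_of_isSemilinearBaseChange (h : IsSemilinearBaseChange ρ b) :
    Submodule.span R' (Set.range b) = ⊤ := by
  letI : Algebra R R' := ρ.toAlgebra
  letI : Module R N' := Module.compHom N' ρ
  haveI : IsScalarTower R R' N' := ⟨fun r r' n => by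
    change (ρ r * r') • n = ρ r • (r' • n); rw [mul_smul]⟩
  rw [eq_top_iff]
  intro x _
  exact IsBaseChange.inductionOn h x (fun x => x ∈ Submodule.span R' (Set.range b))
    (Submodule.zero_mem _) (fun m => Submodule.subset_span ⟨m, rfl⟩)
    (fun s n hn => Submodule.smul_mem _ s hn) (fun n₁ n₂ h₁ h₂ => Submodule.add_mem _ h₁ h₂)

theorem hasLift_of_isSemilinearBaseChange (h : IsSemilinearBaseChange ρ b) : HasLift ρ b := by
  intro m g
  letI : Algebra R R' := ρ.toAlgebra
  letI : Module R N' := Module.compHom N' ρ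
  haveI : IsScalarTower R R' N' := ⟨fun r r' n => by
    change (ρ r * r') • n = ρ r • (r' • n); rw [mul_smul]⟩
  letI : Module R (Fin m → R') := Module.compHom (Fin m → R') ρ
  haveI : IsScalarTower R R' (Fin m → R') := ⟨fun r r' n => by
    change (ρ r * r') • n = ρ r • (r' • n); rw [mul_smul]⟩
  let g₀ : N →ₗ[R] (Fin m → R') :=
    { toFun := fun n => g n
      map_add' := fun x y => g.map_add x y
      map_smul' := fun r n => LinearMap.map_smulₛₗ g r n }
  exact ⟨IsBaseChange.lift h g₀, fun x => IsBaseChange.lift_eq h g₀ x⟩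

end SemilinearBC

section BaseChangeEquiv

variable {R S : Type*} [CommRing R] [CommRing S] [Algebra R S] {M M' N N' : Type*}
  [AddCommGroup M] [AddCommGroup M'] [AddCommGroup N] [AddCommGroup N'] [Module R M]
  [Module R M'] [Module R N] [Module S N] [IsScalarTower R S N] [Module R N'] [Module S N']
  [IsScalarTower R S N'] {f : M →ₗ[R] N} {f' : M' →ₗ[R] N'}

theorem exists_equiv_of_isBaseChange (hf : IsBaseChange S f) (hf' : IsBaseChange S f')
    (e : M ≃ₗ[R] M') : ∃ E : N ≃ₗ[S] N', ∀ m, E (f m) = f' (e m) := by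
  refine ⟨LinearEquiv.ofLinearMap (hf.lift (f' ∘ₗ e.toLinearMap))
    (hf'.lift (f ∘ₗ e.symm.toLinearMap)) ?_ ?_, fun m => ?_⟩
  · apply hf'.algHom_ext
    intro x
    simp [IsBaseChange.lift_eq]
  · apply hf.algHom_ext
    intro x
    simp [IsBaseChange.lift_eq]
  · simp [IsBaseChange.lift_eq]

theorem span_range_of_isBaseChange (hf : IsBaseChange S f) :
    Submodule.span S (Set.range f) = ⊤ := by
  rw [eq_top_iff]
  intro x _
  exact IsBaseChange.inductionOn hf x (fun x => x ∈ Submodule.span S (Set.range f))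
    (Submodule.zero_mem _) (fun m => Submodule.subset_span ⟨m, rfl⟩)
    (fun s n hn => Submodule.smul_mem _ s hn) (fun n₁ n₂ h₁ h₂ => Submodule.add_mem _ h₁ h₂)

theorem invertible_of_isBaseChange [Module.Invertible R M] (hf : IsBaseChange S f) :
    Module.Invertible S N :=
  Module.Invertible.congr hf.equiv

end BaseChangeEquiv

section Main

variable (k : Type u) [Field k] (B₀ B₁ B₀₁ : Type u) [CommRing B₀] [CommRing B₁] [CommRing B₀₁]
  [Algebra k B₀] [Algebra k B₁] [Algebra k B₀₁] [Algebra B₀ B₀₁] [Algebra B₁ B₀₁]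
  [IsScalarTower k B₀ B₀₁] [IsScalarTower k B₁ B₀₁]

set_option maxHeartbeats 1600000 in
/-- **Separatedness of the algebraic Picard functor**, general form: no `IsCurveChart`, no
degree hypothesis; only the special fibres of the two charts have to be domains. -/
theorem isIso_of_isIso_fraction
    (hdom₀ : ∀ (κ : Type u) [Field κ] [Algebra k κ], IsDomain (κ ⊗[k] B₀))
    (hdom₁ : ∀ (κ : Type u) [Field κ] [Algebra k κ], IsDomain (κ ⊗[k] B₁))
    (V : Type u) [CommRing V] [IsDomain V] [ValuationRing V] [Algebra k V]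
    (K : Type u) [Field K] [Algebra V K] [IsFractionRing V K] [Algebra k K]
    [IsScalarTower k V K] (G G' : CurveGD k B₀ B₁ B₀₁ V) (GK GK' : CurveGD k B₀ B₁ B₀₁ K)
    (hGK : CurveGD.IsBC (IsScalarTower.toAlgHom k V K) G GK)
    (hGK' : CurveGD.IsBC (IsScalarTower.toAlgHom k V K) G' GK')
    (hiso : GK.IsIso GK') : G.IsIso G' := by
  classical
  obtain ⟨bm⟩ := hGK
  obtain ⟨bm'⟩ := hGK'
  obtain ⟨fK⟩ := hiso
  let c₀ := Module.Free.chooseBasis k B₀
  let c₁ := Module.Free.chooseBasis k B₁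
  let c₀₁ := Module.Free.chooseBasis k B₀₁
  have hρ₀ : ∀ r i, (Algebra.TensorProduct.basis K c₀).repr
      (tensorMapLeft k (IsScalarTower.toAlgHom k V K) B₀ r) i =
      algebraMap V K ((Algebra.TensorProduct.basis V c₀).repr r i) :=
    fun r i => tensorMapLeft_repr (IsScalarTower.toAlgHom k V K) c₀ r i
  have hρ₁ : ∀ r i, (Algebra.TensorProduct.basis K c₁).repr
      (tensorMapLeft k (IsScalarTower.toAlgHom k V K) B₁ r) i =
      algebraMap V K ((Algebra.TensorProduct.basis V c₁).repr r i) :=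
    fun r i => tensorMapLeft_repr (IsScalarTower.toAlgHom k V K) c₁ r i
  have hρ₀₁ : ∀ r i, (Algebra.TensorProduct.basis K c₀₁).repr
      (tensorMapLeft k (IsScalarTower.toAlgHom k V K) B₀₁ r) i =
      algebraMap V K ((Algebra.TensorProduct.basis V c₀₁).repr r i) :=
    fun r i => tensorMapLeft_repr (IsScalarTower.toAlgHom k V K) c₀₁ r i
  haveI := hdom₀ (ResidueField V)
  haveI := hdom₁ (ResidueField V)
  haveI : Module.Invertible (V ⊗[k] B₀) G.N₀ := G.invertible₀
  haveI : Module.Invertible (V ⊗[k] B₁) G.N₁ := G.invertible₁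
  haveI : Module.Invertible (V ⊗[k] B₀) G'.N₀ := G'.invertible₀
  haveI : Module.Invertible (V ⊗[k] B₁) G'.N₁ := G'.invertible₁
  haveI : Module.Invertible (V ⊗[k] B₀₁) G'.N₀₁ := invertible_of_isBaseChange G'.isBaseChange₀
  -- the two charts
  obtain ⟨a₀, ha₀, E₀, hE₀⟩ := exists_scaled_equiv (Algebra.TensorProduct.basis V c₀)
    (Algebra.TensorProduct.basis K c₀) hρ₀ (tensorMapLeft k (residueAlgHom k V) B₀)
    (special_eq_zero_iff c₀) (span_range_of_isSemilinearBaseChange bm.isBaseChange₀)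
    (span_range_of_isSemilinearBaseChange bm'.isBaseChange₀)
    (hasLift_of_isSemilinearBaseChange bm.isBaseChange₀)
    (hasLift_of_isSemilinearBaseChange bm'.isBaseChange₀) fK.e₀
  obtain ⟨a₁, ha₁, E₁, hE₁⟩ := exists_scaled_equiv (Algebra.TensorProduct.basis V c₁)
    (Algebra.TensorProduct.basis K c₁) hρ₁ (tensorMapLeft k (residueAlgHom k V) B₁)
    (special_eq_zero_iff c₁) (span_range_of_isSemilinearBaseChange bm.isBaseChange₁)
    (span_range_of_isSemilinearBaseChange bm'.isBaseChange₁)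
    (hasLift_of_isSemilinearBaseChange bm.isBaseChange₁)
    (hasLift_of_isSemilinearBaseChange bm'.isBaseChange₁) fK.e₁
  -- extend `E₀` to the overlap
  obtain ⟨E₀₁, hE₀₁⟩ := exists_equiv_of_isBaseChange G.isBaseChange₀ G'.isBaseChange₀ E₀
  have hb₀₁inj : Function.Injective bm'.b₀₁ :=
    injective_of_hasLift (Algebra.TensorProduct.basis V c₀₁) (Algebra.TensorProduct.basis K c₀₁)
      hρ₀₁ (hasLift_of_isSemilinearBaseChange bm'.isBaseChange₀₁)
  -- scalars from `K` pass through the restriction maps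
  have hr₀ : ∀ (a : K) (n : GK'.N₀), GK'.r₀ (algebraMap K (K ⊗[k] B₀) a • n) =
      algebraMap K (K ⊗[k] B₀₁) a • GK'.r₀ n := by
    intro a n
    rw [map_smul, IsScalarTower.algebraMap_apply K (K ⊗[k] B₀) (K ⊗[k] B₀₁)]
    exact (algebraMap_smul (K ⊗[k] B₀₁) (algebraMap K (K ⊗[k] B₀) a) (GK'.r₀ n)).symm
  have hr₁ : ∀ (a : K) (n : GK'.N₁), GK'.r₁ (algebraMap K (K ⊗[k] B₁) a • n) =
      algebraMap K (K ⊗[k] B₀₁) a • GK'.r₁ n := by
    intro a n
    rw [map_smul, IsScalarTower.algebraMap_apply K (K ⊗[k] B₁) (K ⊗[k] B₀₁)]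
    exact (algebraMap_smul (K ⊗[k] B₀₁) (algebraMap K (K ⊗[k] B₁) a) (GK'.r₁ n)).symm
  have hE₀₁K : ∀ m, bm'.b₀₁ (E₀₁ m) =
      algebraMap K (K ⊗[k] B₀₁) a₀ • fK.e₀₁ (bm.b₀₁ m) := by
    intro m
    refine IsBaseChange.inductionOn G.isBaseChange₀ m
      (fun m => bm'.b₀₁ (E₀₁ m) = algebraMap K (K ⊗[k] B₀₁) a₀ • fK.e₀₁ (bm.b₀₁ m))
      ?_ ?_ ?_ ?_
    · simp
    · intro n
      rw [hE₀₁, bm'.comm₀, hE₀, hr₀, bm.comm₀, fK.comm₀]
    · intro s n hn
      rw [map_smul, LinearMap.map_smulₛₗ, hn, LinearMap.map_smulₛₗ, map_smul, smul_comm]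
    · intro n₁ n₂ h₁ h₂
      rw [map_add, map_add, h₁, h₂, map_add, map_add, smul_add]
  -- compare on the overlap
  have hX : Submodule.span (V ⊗[k] B₀₁) (Set.range fun s : G.N₁ => E₀₁ (G.r₁ s)) = ⊤ := by
    have h1 : (Set.range fun s : G.N₁ => E₀₁ (G.r₁ s)) = E₀₁.toLinearMap '' Set.range G.r₁ := by
      ext x
      constructor
      · rintro ⟨s, rfl⟩
        exact ⟨G.r₁ s, ⟨s, rfl⟩, rfl⟩
      · rintro ⟨_, ⟨s, rfl⟩, rfl⟩
        exact ⟨s, rfl⟩
    rw [h1, ← Submodule.map_span, span_range_of_isBaseChange G.isBaseChange₁, Submodule.map_top,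
      LinearMap.range_eq_top]
    exact E₀₁.surjective
  have hY : Submodule.span (V ⊗[k] B₀₁) (Set.range fun s : G.N₁ => G'.r₁ (E₁ s)) = ⊤ := by
    have h1 : (Set.range fun s : G.N₁ => G'.r₁ (E₁ s)) = Set.range G'.r₁ := by
      ext x
      constructor
      · rintro ⟨s, rfl⟩
        exact ⟨E₁ s, rfl⟩
      · rintro ⟨s, rfl⟩
        exact ⟨E₁.symm s, by simp⟩
    rw [h1, span_range_of_isBaseChange G'.isBaseChange₁]
  obtain ⟨u, hu⟩ := exists_unit_of_span (Algebra.TensorProduct.basis V c₀₁)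
    (Algebra.TensorProduct.basis K c₀₁) hρ₀₁ (tensorMapLeft k (residueAlgHom k V) B₀₁)
    (special_eq_zero_iff c₀₁) bm'.b₀₁ hb₀₁inj (fun s : G.N₁ => E₀₁ (G.r₁ s))
    (fun s : G.N₁ => G'.r₁ (E₁ s)) hX hY a₀ a₁ ha₀ ha₁ (by
      intro s
      rw [hE₀₁K, bm.comm₁, fK.comm₁, bm'.comm₁, hE₁, hr₁, smul_comm])
  -- rescale `E₁`
  have huu : algebraMap V (V ⊗[k] B₁) ↑u * algebraMap V (V ⊗[k] B₁) ↑u⁻¹ = 1 := by
    rw [← map_mul, Units.mul_inv, map_one]
  have huu' : algebraMap V (V ⊗[k] B₁) ↑u⁻¹ * algebraMap V (V ⊗[k] B₁) ↑u = 1 := by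
    rw [← map_mul, Units.inv_mul, map_one]
  let E₁' : G.N₁ ≃ₗ[V ⊗[k] B₁] G'.N₁ :=
    LinearEquiv.ofLinearMap (algebraMap V (V ⊗[k] B₁) ↑u • E₁.toLinearMap)
      (algebraMap V (V ⊗[k] B₁) ↑u⁻¹ • E₁.symm.toLinearMap)
      (by
        ext y
        simp only [LinearMap.comp_apply, LinearMap.smul_apply, LinearEquiv.coe_coe,
          LinearMap.id_apply, map_smul, LinearEquiv.apply_symm_apply, smul_smul]
        rw [huu', one_smul])
      (by
        ext y
        simp only [LinearMap.comp_apply, LinearMap.smul_apply, LinearEquiv.coe_coe,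
          LinearMap.id_apply, map_smul, LinearEquiv.symm_apply_apply, smul_smul]
        rw [huu, one_smul])
  refine ⟨⟨E₀, E₁', E₀₁, hE₀₁, fun s => ?_⟩⟩
  have h1 : E₀₁ (G.r₁ s) = (algebraMap V (V ⊗[k] B₀₁)) ↑u • G'.r₁ (E₁ s) := hu s
  rw [h1]
  change _ = G'.r₁ (algebraMap V (V ⊗[k] B₁) ↑u • E₁ s)
  rw [map_smul, IsScalarTower.algebraMap_apply V (V ⊗[k] B₁) (V ⊗[k] B₀₁), algebraMap_smul]

/-- `Stmt.AlgVal` as soon as the special fibres of the charts are domains. -/
theorem algVal_of_isDomain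
    (hdom₀ : ∀ (κ : Type u) [Field κ] [Algebra k κ], IsDomain (κ ⊗[k] B₀))
    (hdom₁ : ∀ (κ : Type u) [Field κ] [Algebra k κ], IsDomain (κ ⊗[k] B₁)) :
    Stmt.AlgVal k B₀ B₁ B₀₁ := by
  intro x y e hC V _ _ _ _ K _ _ _ _ _ G G' GK GK' _ _ hGK hGK' hiso
  exact isIso_of_isIso_fraction k B₀ B₁ B₀₁ hdom₀ hdom₁ V K G G' GK GK' hGK hGK' hiso

/-- **ALG-VAL** (frozen `Stmt.AlgVal`) over an algebraically closed field. -/
theorem algVal [IsAlgClosed k] : Stmt.AlgVal k B₀ B₁ B₀₁ := by
  intro x y e hC V _ _ _ _ K _ _ _ _ _ G G' GK GK' _ _ hGK hGK' hiso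
  haveI := hC.isDomain₀
  haveI := hC.isDomain₁
  exact isIso_of_isIso_fraction k B₀ B₁ B₀₁
    (fun κ _ _ => H567.isDomain_tensorProduct_of_isAlgClosed k κ B₀)
    (fun κ _ _ => H567.isDomain_tensorProduct_of_isAlgClosed k κ B₁)
    V K G G' GK GK' hGK hGK' hiso

end Main

end

end Fermat.Agent.S25.H790
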